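/-
Program C (S55), package C9b, leaf L2-P (designer helper93): arithmetic core of the valuation
embedding `val : Q_S^× / E_S ↪ Fun(X, ℤ)`, in the Prelude's vocabulary (helper56).

For a number field `N ⊆ ℚ̄` unramified outside `S` (`IntermediateField.IsUnramifiedOutside`: the
inertia subgroups of the valuation subrings of `ℚ̄` over the primes outside `S` fix `N`), a prime
`ℓ ∉ S` and a valuation subring `A` of `ℚ̄` over `ℓ`:

* `exists_zpow_unit` (VAL-E1): every `x ∈ Nˣ` is `ℓ ^ m` times a unit of `A` — the prime `ℓ`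
  generates the value group of `A` on `N` (ramification index one);
* `zpow_unit_unique` (VAL-UNIQ), `zpow_unit_mul` (VAL-MUL), `zpow_unit_smul` (VAL-SMUL);
* `finite_support` (VAL-FIN): a nonzero algebraic number is a unit at all valuation subrings
  outside finitely many primes.
-/
import Mathlib
import Fermat.Prelude.Def_GroupCohomology_ContinuousUnramified
import Fermat.Agent.S14.H4.Dictionary
import Fermat.Agent.S55.H43.Levels
import Fermat.Agent.S55.H87.UnrKummer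

set_option autoImplicit false

namespace Fermat.Agent.S55.H56

open NumberField IsDedekindDomain
open scoped Pointwise

local notation "Qb" => AlgebraicClosure ℚ
local notation "Γ" => (AlgebraicClosure ℚ ≃ₐ[ℚ] AlgebraicClosure ℚ)
local notation "𝓑" => integralClosure ℤ (AlgebraicClosure ℚ)

/-! ### Units of a valuation subring -/

/-- `x` is a unit of the valuation subring `A`. -/
def IsUnitAt (A : ValuationSubring Qb) (x : Qb) : Prop := x ∈ A ∧ x⁻¹ ∈ A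

theorem isUnitAt_of_not_mem_nonunits {A : ValuationSubring Qb} {x : Qb} (hx : x ∈ A)
    (h : x ∉ A.nonunits) : IsUnitAt A x := by
  refine ⟨hx, ?_⟩
  rw [ValuationSubring.mem_nonunits_iff_or] at h
  push Not at h
  exact h.2

theorem IsUnitAt.mul {A : ValuationSubring Qb} {x y : Qb} (hx : IsUnitAt A x)
    (hy : IsUnitAt A y) : IsUnitAt A (x * y) :=
  ⟨A.mul_mem _ _ hx.1 hy.1, by rw [mul_inv]; exact A.mul_mem _ _ hx.2 hy.2⟩

theorem IsUnitAt.inv {A : ValuationSubring Qb} {x : Qb} (hx : IsUnitAt A x) : IsUnitAt A x⁻¹ :=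
  ⟨hx.2, by rw [inv_inv]; exact hx.1⟩

theorem IsUnitAt.div {A : ValuationSubring Qb} {x y : Qb} (hx : IsUnitAt A x)
    (hy : IsUnitAt A y) : IsUnitAt A (x / y) := by
  rw [div_eq_mul_inv]
  exact hx.mul hy.inv

/-! ### The centre of a valuation subring on the integers of a number field -/

/-- The prime of `𝓞 N` cut out by the valuation subring `A` of `ℚ̄`. -/
noncomputable def centerInt (N : IntermediateField ℚ Qb) (A : ValuationSubring Qb) :
    Ideal (𝓞 N) :=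
  (Fermat.Agent.S54.H94.primeB A).comap (Fermat.Agent.S14.H4.inclInt N)

instance centerInt_isPrime (N : IntermediateField ℚ Qb) (A : ValuationSubring Qb) :
    (centerInt N A).IsPrime :=
  Ideal.comap_isPrime _ _

theorem mem_centerInt_iff (N : IntermediateField ℚ Qb) (A : ValuationSubring Qb) (a : 𝓞 N) :
    a ∈ centerInt N A ↔ ((a : N) : Qb) ∈ A.nonunits := by
  rw [centerInt, Ideal.mem_comap, Fermat.Agent.S54.H94.mem_primeB_iff,
    Fermat.Agent.S14.H4.coe_inclInt]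

theorem coe_mem_of_integer (N : IntermediateField ℚ Qb) (A : ValuationSubring Qb) (a : 𝓞 N) :
    ((a : N) : Qb) ∈ A :=
  Fermat.Agent.S54.H94.mem_valuationSubring_of_isIntegral A
    (Fermat.Agent.S14.H4.inclInt N a).2

theorem isUnitAt_of_not_mem_centerInt (N : IntermediateField ℚ Qb) (A : ValuationSubring Qb)
    {a : 𝓞 N} (ha : a ∉ centerInt N A) : IsUnitAt A ((a : N) : Qb) :=
  isUnitAt_of_not_mem_nonunits (coe_mem_of_integer N A a)
    (fun h => ha ((mem_centerInt_iff N A a).mpr h))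


theorem centerInt_liesOver (N : IntermediateField ℚ Qb) (A : ValuationSubring Qb) {ℓ : ℕ}
    (hℓ : ℓ.Prime) (hA : A.LiesOverPrime ℓ) :
    (centerInt N A).LiesOver (Ideal.span {(ℓ : ℤ)}) := by
  constructor
  have hmax : (Ideal.span {(ℓ : ℤ)}).IsMaximal :=
    PrincipalIdealRing.isMaximal_of_irreducible (Nat.prime_iff_prime_int.mp hℓ).irreducible
  refine hmax.eq_of_le ?_ ?_
  · exact Ideal.IsPrime.ne_top (Ideal.comap_isPrime (algebraMap ℤ (𝓞 N)) (centerInt N A))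
  · rw [Ideal.span_singleton_le_iff_mem, Ideal.under, Ideal.mem_comap, mem_centerInt_iff]
    have : (((algebraMap ℤ (𝓞 N) (ℓ : ℤ) : 𝓞 N) : N) : Qb) = (ℓ : Qb) := by simp
    rw [this]
    exact hA

/-! ### Inertia -/

/-- An automorphism of `ℚ̄` acting trivially modulo the prime of `ℤ̄` cut out by `A` is in the
inertia subgroup of `A`. -/
theorem mem_inertiaSubgroupIn_of_forall_primeB (A : ValuationSubring Qb) (σ : Γ)
    (hσ : ∀ b : 𝓑, σ • b - b ∈ Fermat.Agent.S54.H94.primeB A) :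
    σ ∈ A.inertiaSubgroupIn ℚ := by
  rw [Fermat.Agent.S55.H43.mem_inertiaSubgroupIn_iff]
  intro x hx
  obtain ⟨b, s, hs, hbs⟩ := Fermat.Agent.S54.H94.exists_inclB_mul_eq (A := A) ⟨x, hx⟩
  have hbs' : x * (s : Qb) = (b : Qb) := congrArg Subtype.val hbs
  have hsu : (s : Qb) ∉ A.nonunits := by
    rw [← Fermat.Agent.S54.H94.isUnit_inclB_iff]
    exact hs
  have hsA : (s : Qb) ∈ A := Fermat.Agent.S54.H94.mem_valuationSubring_of_isIntegral A s.2
  have hvs : A.valuation (s : Qb) = 1 := by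
    have h1 : A.valuation (s : Qb) ≤ 1 := (A.valuation_le_one_iff _).mpr hsA
    have h2 : ¬ A.valuation (s : Qb) < 1 := fun h => hsu ((ValuationSubring.mem_nonunits_iff _).mpr h)
    exact le_antisymm h1 (not_lt.mp h2)
  have hb1 : A.valuation (σ (b : Qb) - (b : Qb)) < 1 := by
    have := (Fermat.Agent.S54.H94.mem_primeB_iff A _).mp (hσ b)
    exact (ValuationSubring.mem_nonunits_iff _).mp this
  have hs1 : A.valuation (σ (s : Qb) - (s : Qb)) < 1 := by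
    have := (Fermat.Agent.S54.H94.mem_primeB_iff A _).mp (hσ s)
    exact (ValuationSubring.mem_nonunits_iff _).mp this
  have hvσs : A.valuation (σ (s : Qb)) = 1 := by
    have h1 : σ (s : Qb) = (s : Qb) + (σ (s : Qb) - (s : Qb)) := by ring
    rw [h1, Valuation.map_add_eq_of_lt_left _ (by rw [hvs]; exact hs1), hvs]
  have hx1 : A.valuation x ≤ 1 := (A.valuation_le_one_iff _).mpr hx
  have key : (σ x - x) * σ (s : Qb) = (σ (b : Qb) - (b : Qb)) - x * (σ (s : Qb) - (s : Qb)) := by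
    rw [← hbs', map_mul]
    ring
  rw [ValuationSubring.mem_nonunits_iff]
  have h2 : A.valuation ((σ x - x) * σ (s : Qb)) < 1 := by
    rw [key]
    refine lt_of_le_of_lt (Valuation.map_sub _ _ _) (max_lt hb1 ?_)
    rw [map_mul]
    calc A.valuation x * A.valuation (σ (s : Qb) - (s : Qb))
        ≤ 1 * A.valuation (σ (s : Qb) - (s : Qb)) := mul_le_mul' hx1 le_rfl
      _ < 1 := by rwa [one_mul]
  rwa [map_mul, hvσs, mul_one] at h2

/-! ### Ramification index one -/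

variable {S : Finset Nat.Primes}

theorem inertia_centerInt_eq_one {N : IntermediateField ℚ Qb} [NumberField N] [IsGalois ℚ N]
    (hN : N.IsUnramifiedOutside S) (ℓ : Nat.Primes) (hℓ : ℓ ∉ S) (A : ValuationSubring Qb)
    (hA : A.LiesOverPrime (ℓ : ℕ)) (σ₀ : N ≃ₐ[ℚ] N)
    (hσ₀ : ∀ a : 𝓞 N, σ₀ • a - a ∈ centerInt N A) : σ₀ = 1 := by
  let σ' : Γ := σ₀.liftNormal Qb
  have hσ' : ∀ x : N, σ' (x : Qb) = ((σ₀ x : N) : Qb) :=
    fun x => AlgEquiv.liftNormal_commutes σ₀ Qb x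
  have hyp : ∀ b : 𝓑, (b : Qb) ∈ N → σ' • b - b ∈ Fermat.Agent.S54.H94.primeB A := by
    intro b hb
    have hint : IsIntegral ℤ (⟨(b : Qb), hb⟩ : N) := by
      have h1 : IsIntegral ℤ (algebraMap N Qb ⟨(b : Qb), hb⟩) := b.2
      exact (isIntegral_algebraMap_iff (algebraMap N Qb).injective).mp h1
    let a : 𝓞 N := ⟨⟨(b : Qb), hb⟩, hint⟩
    have h2 := (mem_centerInt_iff N A _).mp (hσ₀ a)
    rw [Fermat.Agent.S54.H94.mem_primeB_iff]
    have h3 : ((σ' • b - b : 𝓑) : Qb) = (((σ₀ • a - a : 𝓞 N) : N) : Qb) := by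
      have e0 : ((a : N) : Qb) = (b : Qb) := rfl
      have e1 : ((σ' • b - b : 𝓑) : Qb) = σ' (b : Qb) - (b : Qb) := rfl
      have e2 : (((σ₀ • a - a : 𝓞 N) : N) : Qb) = ((σ₀ (a : N) : N) : Qb) - ((a : N) : Qb) := rfl
      rw [e1, e2, ← hσ', e0]
    rw [h3]
    exact h2
  obtain ⟨σ, hσN, hσQ⟩ := Fermat.Agent.S14.H4.exists_lift_inertia N
    (Fermat.Agent.S54.H94.primeB A) σ' hyp
  have hσI := mem_inertiaSubgroupIn_of_forall_primeB A σ hσQ
  have hσfix : σ ∈ N.fixingSubgroup := hN.2 ℓ hℓ A hA hσI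
  ext x
  have h1 : σ (x : Qb) = (x : Qb) := hσfix ⟨(x : Qb), x.2⟩
  have h2 := hσN (x : Qb) x.2
  rw [h1, hσ'] at h2
  exact h2.symm

theorem ramificationIdx_centerInt {N : IntermediateField ℚ Qb} [NumberField N] [IsGalois ℚ N]
    (hN : N.IsUnramifiedOutside S) (ℓ : Nat.Primes) (hℓ : ℓ ∉ S) (A : ValuationSubring Qb)
    (hA : A.LiesOverPrime (ℓ : ℕ)) :
    (centerInt N A).ramificationIdx ℤ = 1 := by
  have := centerInt_liesOver N A ℓ.2 hA
  have : (Ideal.span {((ℓ : ℕ) : ℤ)}).IsPrime :=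
    (PrincipalIdealRing.isMaximal_of_irreducible
      (Nat.prime_iff_prime_int.mp ℓ.2).irreducible).isPrime
  have h1 := Ideal.card_inertia_eq_ramificationIdxIn (G := N ≃ₐ[ℚ] N)
    (Ideal.span {((ℓ : ℕ) : ℤ)}) (centerInt N A)
  rw [Ideal.ramificationIdxIn_eq_ramificationIdx _ (centerInt N A) (N ≃ₐ[ℚ] N)] at h1
  rw [← h1]
  have h2 : Ideal.inertia (N ≃ₐ[ℚ] N) (centerInt N A) = ⊥ := by
    rw [eq_bot_iff]
    intro σ₀ hσ₀
    rw [Subgroup.mem_bot]
    exact inertia_centerInt_eq_one hN ℓ hℓ A hA σ₀ hσ₀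
  rw [h2]
  exact Subgroup.card_bot


/-! ### A Dedekind lemma -/

/-- In a Dedekind domain, if `ℓ ∈ P`, `ℓ ∉ P ^ 2` (`P` a nonzero prime), then every nonzero `a`
is, up to elements outside `P`, a power of `ℓ`. -/
theorem exists_pow_mul_eq_of_not_le_sq {R : Type*} [CommRing R] [IsDedekindDomain R]
    (P : Ideal R) [hPp : P.IsPrime] (hP : P ≠ ⊥) (ℓ : R) (hℓP : ℓ ∈ P)
    (hℓ2 : ¬ Ideal.span {ℓ} ≤ P ^ 2) (a : R) (ha : a ≠ 0) :
    ∃ (n : ℕ) (c t : R), t ∉ P ∧ c ∉ P ∧ a * t = ℓ ^ n * c := by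
  classical
  obtain ⟨I, hI⟩ : P ∣ Ideal.span {ℓ} :=
    Ideal.dvd_iff_le.mpr ((Ideal.span_singleton_le_iff_mem _).mpr hℓP)
  have hIP : ¬ I ≤ P := by
    intro h
    apply hℓ2
    rw [hI, pow_two]
    exact Ideal.mul_mono_right h
  have hirr : Irreducible P := (Ideal.prime_of_isPrime hP hPp).irreducible
  have ha' : Ideal.span {a} ≠ 0 := by
    rw [Ideal.zero_eq_bot, Ne, Ideal.span_singleton_eq_bot]
    exact ha
  obtain ⟨n, J, hJ, haJ⟩ := WfDvdMonoid.max_power_factor ha' hirr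
  have hInP : ¬ I ^ n ≤ P := by
    intro h
    exact hIP (hPp.le_of_pow_le h)
  obtain ⟨t, htI, htP⟩ := SetLike.not_le_iff_exists.mp hInP
  have hmem : a * t ∈ Ideal.span {ℓ ^ n} := by
    have h1 : a * t ∈ Ideal.span {a} * I ^ n :=
      Ideal.mul_mem_mul (Ideal.mem_span_singleton_self a) htI
    have h2 : Ideal.span {a} * I ^ n = Ideal.span {ℓ ^ n} * J := by
      have e1 : Ideal.span {ℓ ^ n} = P ^ n * I ^ n := by
        rw [← Ideal.span_singleton_pow, hI, mul_pow]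
      rw [e1, haJ]
      exact mul_right_comm _ _ _
    rw [h2] at h1
    exact Ideal.mul_le_left h1
  obtain ⟨c, hc⟩ := Ideal.mem_span_singleton'.mp hmem
  refine ⟨n, c, t, htP, ?_, by rw [← hc, mul_comm]⟩
  intro hcP
  obtain ⟨C', hC'⟩ : P ∣ Ideal.span {c} :=
    Ideal.dvd_iff_le.mpr ((Ideal.span_singleton_le_iff_mem _).mpr hcP)
  have h3 : P ^ n * (J * Ideal.span {t}) = P ^ n * (P * (I ^ n * C')) := by
    calc P ^ n * (J * Ideal.span {t}) = Ideal.span {a} * Ideal.span {t} := by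
          rw [haJ, mul_assoc]
      _ = Ideal.span {a * t} := by rw [Ideal.span_singleton_mul_span_singleton]
      _ = Ideal.span {c * ℓ ^ n} := by rw [hc]
      _ = Ideal.span {c} * Ideal.span {ℓ} ^ n := by
          rw [Ideal.span_singleton_pow, Ideal.span_singleton_mul_span_singleton]
      _ = P ^ n * (P * (I ^ n * C')) := by
          rw [hC', hI, mul_pow]; ac_rfl
  have hPn : P ^ n ≠ 0 := pow_ne_zero n (by rwa [Ideal.zero_eq_bot])
  have h4 := mul_left_cancel₀ hPn h3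
  have h5 : P ∣ J * Ideal.span {t} := ⟨_, h4⟩
  rcases (Ideal.prime_of_isPrime hP hPp).dvd_or_dvd h5 with h | h
  · exact hJ h
  · exact htP ((Ideal.span_singleton_le_iff_mem _).mp (Ideal.dvd_iff_le.mp h))


/-! ### VAL-E1 -/

/-- VAL-E1 for a Galois level. -/
theorem exists_zpow_unit_of_isGalois {N : IntermediateField ℚ Qb} [NumberField N] [IsGalois ℚ N]
    (hN : N.IsUnramifiedOutside S) (ℓ : Nat.Primes) (hℓ : ℓ ∉ S) (A : ValuationSubring Qb)
    (hA : A.LiesOverPrime (ℓ : ℕ)) (x : N) (hx0 : x ≠ 0) :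
    ∃ m : ℤ, IsUnitAt A ((x : Qb) / ((ℓ : ℕ) : Qb) ^ m) := by
  have hℓ0 : (((ℓ : ℕ) : ℕ) : Qb) ≠ 0 := Nat.cast_ne_zero.mpr ℓ.2.ne_zero
  have hLO := centerInt_liesOver N A ℓ.2 hA
  have hpprime : (Ideal.span {((ℓ : ℕ) : ℤ)}).IsPrime :=
    (PrincipalIdealRing.isMaximal_of_irreducible
      (Nat.prime_iff_prime_int.mp ℓ.2).irreducible).isPrime
  have hp0 : Ideal.span {((ℓ : ℕ) : ℤ)} ≠ ⊥ := by
    rw [Ne, Ideal.span_singleton_eq_bot]
    exact_mod_cast ℓ.2.ne_zero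
  have hmap : Ideal.map (algebraMap ℤ (𝓞 N)) (Ideal.span {((ℓ : ℕ) : ℤ)}) =
      Ideal.span {(((ℓ : ℕ) : ℕ) : 𝓞 N)} := by
    rw [Ideal.map_span, Set.image_singleton]
    simp
  have hℓP : (((ℓ : ℕ) : ℕ) : 𝓞 N) ∈ centerInt N A := by
    rw [mem_centerInt_iff]
    have : ((((((ℓ : ℕ) : ℕ) : 𝓞 N)) : N) : Qb) = ((ℓ : ℕ) : Qb) := by simp
    rw [this]
    exact hA
  have hP0 : centerInt N A ≠ ⊥ := by
    intro h
    rw [h, Ideal.mem_bot] at hℓP
    exact ℓ.2.ne_zero (by exact_mod_cast hℓP)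
  have hle : Ideal.map (algebraMap ℤ (𝓞 N)) (Ideal.span {((ℓ : ℕ) : ℤ)}) ≤ centerInt N A := by
    rw [hmap, Ideal.span_singleton_le_iff_mem]
    exact hℓP
  have hsq : ¬ Ideal.span {(((ℓ : ℕ) : ℕ) : 𝓞 N)} ≤ centerInt N A ^ 2 := by
    have h1 : (Ideal.span {((ℓ : ℕ) : ℤ)}).ramificationIdx' (centerInt N A) = 1 := by
      rw [Ideal.ramificationIdx'_eq_ramificationIdx _ _ hp0]
      exact ramificationIdx_centerInt hN ℓ hℓ A hA
    intro h2
    rw [← hmap] at h2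
    exact (Ideal.ramificationIdx'_ne_one_iff hle).mpr h2 h1
  obtain ⟨a, a', ha', hx⟩ := IsFractionRing.div_surjective (A := 𝓞 N) x
  have ha'0 : a' ≠ 0 := nonZeroDivisors.ne_zero ha'
  have ha0 : a ≠ 0 := by
    rintro rfl
    rw [map_zero, zero_div] at hx
    exact hx0 hx.symm
  obtain ⟨n, c, t, htP, hcP, hct⟩ :=
    exists_pow_mul_eq_of_not_le_sq (centerInt N A) hP0 _ hℓP hsq a ha0
  obtain ⟨n', c', t', htP', hcP', hct'⟩ :=
    exists_pow_mul_eq_of_not_le_sq (centerInt N A) hP0 _ hℓP hsq a' ha'0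
  have hu := ((isUnitAt_of_not_mem_centerInt N A hcP).mul
    (isUnitAt_of_not_mem_centerInt N A htP')).div
    ((isUnitAt_of_not_mem_centerInt N A hcP').mul (isUnitAt_of_not_mem_centerInt N A htP))
  refine ⟨(n : ℤ) - (n' : ℤ), ?_⟩
  have e1 : (((a : N)) : Qb) * ((t : N) : Qb) = ((ℓ : ℕ) : Qb) ^ n * ((c : N) : Qb) := by
    have := congrArg (fun z : 𝓞 N => (((z : N)) : Qb)) hct
    simpa using this
  have e2 : (((a' : N)) : Qb) * ((t' : N) : Qb) = ((ℓ : ℕ) : Qb) ^ n' * ((c' : N) : Qb) := by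
    have := congrArg (fun z : 𝓞 N => (((z : N)) : Qb)) hct'
    simpa using this
  have ht0 : ((t : N) : Qb) ≠ 0 := by
    intro h
    apply htP
    have : t = 0 := by
      apply RingOfIntegers.ext
      exact Subtype.ext (by simpa using h)
    rw [this]
    exact Ideal.zero_mem _
  have ht'0 : ((t' : N) : Qb) ≠ 0 := by
    intro h
    apply htP'
    have : t' = 0 := by
      apply RingOfIntegers.ext
      exact Subtype.ext (by simpa using h)
    rw [this]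
    exact Ideal.zero_mem _
  have hc'0 : ((c' : N) : Qb) ≠ 0 := by
    intro h
    apply hcP'
    have : c' = 0 := by
      apply RingOfIntegers.ext
      exact Subtype.ext (by simpa using h)
    rw [this]
    exact Ideal.zero_mem _
  have ha'Q : (((a' : N)) : Qb) ≠ 0 := by
    intro h
    apply ha'0
    apply RingOfIntegers.ext
    exact Subtype.ext (by simpa using h)
  have hxQ : (x : Qb) = ((a : N) : Qb) / ((a' : N) : Qb) := by
    rw [← hx]
    rfl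
  have key : (x : Qb) / ((ℓ : ℕ) : Qb) ^ ((n : ℤ) - (n' : ℤ)) =
      (((c : N) : Qb) * ((t' : N) : Qb)) / (((c' : N) : Qb) * ((t : N) : Qb)) := by
    rw [hxQ, zpow_sub₀ hℓ0, zpow_natCast, zpow_natCast]
    have hn : ((ℓ : ℕ) : Qb) ^ n ≠ 0 := pow_ne_zero _ hℓ0
    have hn' : ((ℓ : ℕ) : Qb) ^ n' ≠ 0 := pow_ne_zero _ hℓ0
    have ea : ((a : N) : Qb) = ((ℓ : ℕ) : Qb) ^ n * ((c : N) : Qb) / ((t : N) : Qb) := by
      rw [← e1]; field_simp
    have ea' : ((a' : N) : Qb) = ((ℓ : ℕ) : Qb) ^ n' * ((c' : N) : Qb) / ((t' : N) : Qb) := by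
      rw [← e2]; field_simp
    rw [ea, ea']
    field_simp
  rw [key]
  exact hu

/-- **VAL-E1.**  If `K` is unramified outside `S`, `ℓ ∉ S` and `A` is a valuation subring of `ℚ̄`
over `ℓ`, then every nonzero `x ∈ K` is `ℓ ^ m` times a unit of `A`. -/
theorem exists_zpow_isUnitAt {K : IntermediateField ℚ Qb} (hK : K.IsUnramifiedOutside S)
    (ℓ : Nat.Primes) (hℓ : ℓ ∉ S) (A : ValuationSubring Qb) (hA : A.LiesOverPrime (ℓ : ℕ))
    {x : Qb} (hx : x ∈ K) (hx0 : x ≠ 0) :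
    ∃ m : ℤ, IsUnitAt A (x / ((ℓ : ℕ) : Qb) ^ m) := by
  obtain ⟨N, hN, hKN, -, hgal⟩ := Fermat.Agent.S55.H43.exists_normal_level hK
  have := hN.1
  have : NumberField N := ⟨⟩
  exact exists_zpow_unit_of_isGalois hN ℓ hℓ A hA ⟨x, hKN hx⟩
    (fun h => hx0 (congrArg Subtype.val h))

/-- **VAL-E1**, in the shape announced to the consumers. -/
theorem exists_zpow_unit {K : IntermediateField ℚ Qb} (hK : K.IsUnramifiedOutside S)
    (ℓ : Nat.Primes) (hℓ : ℓ ∉ S) (A : ValuationSubring Qb) (hA : A.LiesOverPrime (ℓ : ℕ))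
    {x : Qb} (hx : x ∈ K) (hx0 : x ≠ 0) :
    ∃ m : ℤ, x / ((ℓ : ℕ) : Qb) ^ m ∈ A ∧ ((ℓ : ℕ) : Qb) ^ m / x ∈ A := by
  obtain ⟨m, h1, h2⟩ := exists_zpow_isUnitAt hK ℓ hℓ A hA hx hx0
  refine ⟨m, h1, ?_⟩
  rwa [inv_div] at h2

/-! ### VAL-UNIQ, VAL-MUL, VAL-SMUL -/

theorem valuation_eq_one_of_isUnitAt {A : ValuationSubring Qb} {u : Qb} (hu : IsUnitAt A u)
    (hu0 : u ≠ 0) : A.valuation u = 1 := by
  have h1 : A.valuation u ≤ 1 := (A.valuation_le_one_iff _).mpr hu.1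
  have h2 : A.valuation u⁻¹ ≤ 1 := (A.valuation_le_one_iff _).mpr hu.2
  rw [map_inv₀] at h2
  have h0 : A.valuation u ≠ 0 := (Valuation.ne_zero_iff _).mpr hu0
  have h3 : 1 ≤ A.valuation u := (inv_le_one₀ (zero_lt_iff.mpr h0)).mp h2
  exact le_antisymm h1 h3

theorem isUnitAt_of_valuation_eq_one {A : ValuationSubring Qb} {u : Qb}
    (hu : A.valuation u = 1) : IsUnitAt A u :=
  ⟨(A.valuation_le_one_iff _).mp hu.le,
    (A.valuation_le_one_iff _).mp (by rw [map_inv₀, hu, inv_one])⟩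

theorem valuation_prime_lt_one {A : ValuationSubring Qb} {ℓ : ℕ} (hA : A.LiesOverPrime ℓ) :
    A.valuation (ℓ : Qb) < 1 :=
  (ValuationSubring.mem_nonunits_iff _).mp hA

/-- If `x / ℓ ^ m` is a unit at `A` then `v_A(x) = v_A(ℓ) ^ m`. -/
theorem valuation_eq_zpow_of_isUnitAt {A : ValuationSubring Qb} {ℓ : ℕ} (hℓ : ℓ.Prime) {x : Qb}
    (hx0 : x ≠ 0) {m : ℤ} (h : IsUnitAt A (x / (ℓ : Qb) ^ m)) :
    A.valuation x = A.valuation (ℓ : Qb) ^ m := by
  have hℓ0 : (ℓ : Qb) ≠ 0 := Nat.cast_ne_zero.mpr hℓ.ne_zero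
  have h1 := valuation_eq_one_of_isUnitAt h (div_ne_zero hx0 (zpow_ne_zero m hℓ0))
  rw [map_div₀, map_zpow₀] at h1
  have h0 : A.valuation (ℓ : Qb) ^ m ≠ 0 :=
    zpow_ne_zero m ((Valuation.ne_zero_iff _).mpr hℓ0)
  rwa [div_eq_one_iff_eq h0] at h1

/-- **VAL-UNIQ.**  The exponent `m` with `x / ℓ ^ m` a unit at `A` is unique. -/
theorem zpow_isUnitAt_unique {A : ValuationSubring Qb} {ℓ : ℕ} (hℓ : ℓ.Prime)
    (hA : A.LiesOverPrime ℓ) {x : Qb} (hx0 : x ≠ 0) {m m' : ℤ}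
    (h : IsUnitAt A (x / (ℓ : Qb) ^ m)) (h' : IsUnitAt A (x / (ℓ : Qb) ^ m')) : m = m' := by
  have hℓ0 : (ℓ : Qb) ≠ 0 := Nat.cast_ne_zero.mpr hℓ.ne_zero
  have e := (valuation_eq_zpow_of_isUnitAt hℓ hx0 h).symm.trans
    (valuation_eq_zpow_of_isUnitAt hℓ hx0 h')
  have hpos : 0 < A.valuation (ℓ : Qb) :=
    zero_lt_iff.mpr ((Valuation.ne_zero_iff _).mpr hℓ0)
  have hlt := valuation_prime_lt_one hA
  exact zpow_right_injective₀ hpos hlt.ne e

/-- **VAL-UNIQ**, in the shape announced to the consumers. -/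
theorem zpow_unit_unique {A : ValuationSubring Qb} {ℓ : ℕ} (hℓ : ℓ.Prime)
    (hA : A.LiesOverPrime ℓ) {x : Qb} (hx0 : x ≠ 0) {m m' : ℤ}
    (h1 : x / (ℓ : Qb) ^ m ∈ A) (h2 : (ℓ : Qb) ^ m / x ∈ A)
    (h1' : x / (ℓ : Qb) ^ m' ∈ A) (h2' : (ℓ : Qb) ^ m' / x ∈ A) : m = m' :=
  zpow_isUnitAt_unique hℓ hA hx0 ⟨h1, by rwa [inv_div]⟩ ⟨h1', by rwa [inv_div]⟩

/-- **VAL-MUL.** -/
theorem zpow_unit_mul {A : ValuationSubring Qb} {c x y : Qb} {m n : ℤ} (hc0 : c ≠ 0)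
    (hx1 : x / c ^ m ∈ A) (hx2 : c ^ m / x ∈ A)
    (hy1 : y / c ^ n ∈ A) (hy2 : c ^ n / y ∈ A) :
    x * y / c ^ (m + n) ∈ A ∧ c ^ (m + n) / (x * y) ∈ A := by
  rw [zpow_add₀ hc0]
  refine ⟨?_, ?_⟩
  · rw [mul_div_mul_comm]
    exact A.mul_mem _ _ hx1 hy1
  · rw [mul_div_mul_comm]
    exact A.mul_mem _ _ hx2 hy2

/-- **VAL-INV.** -/
theorem zpow_unit_inv {A : ValuationSubring Qb} {c x : Qb} {m : ℤ}
    (hx1 : x / c ^ m ∈ A) (hx2 : c ^ m / x ∈ A) :
    x⁻¹ / c ^ (-m) ∈ A ∧ c ^ (-m) / x⁻¹ ∈ A := by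
  rw [zpow_neg]
  refine ⟨?_, ?_⟩
  · rwa [inv_div_inv]
  · rwa [inv_div_inv]

/-- **VAL-ONE.** -/
theorem zpow_unit_one (A : ValuationSubring Qb) (c : Qb) :
    (1 : Qb) / c ^ (0 : ℤ) ∈ A ∧ c ^ (0 : ℤ) / (1 : Qb) ∈ A := by
  simp [A.one_mem]

/-- **VAL-SMUL.**  Equivariance: the exponent of `σ x` at `σ • A` is the exponent of `x` at
`A`. -/
theorem zpow_unit_smul {A : ValuationSubring Qb} (σ : Γ) {ℓ : ℕ} {x : Qb} {m : ℤ}
    (h1 : x / (ℓ : Qb) ^ m ∈ A) (h2 : (ℓ : Qb) ^ m / x ∈ A) :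
    σ x / (ℓ : Qb) ^ m ∈ σ • A ∧ (ℓ : Qb) ^ m / σ x ∈ σ • A := by
  have hσℓ : σ ((ℓ : Qb) ^ m) = (ℓ : Qb) ^ m := by
    rw [map_zpow₀, map_natCast]
  refine ⟨?_, ?_⟩
  · have : σ x / (ℓ : Qb) ^ m = σ • (x / (ℓ : Qb) ^ m) := by
      rw [AlgEquiv.smul_def, map_div₀, hσℓ]
    rw [this]
    exact ValuationSubring.smul_mem_pointwise_smul _ _ _ h1
  · have : (ℓ : Qb) ^ m / σ x = σ • ((ℓ : Qb) ^ m / x) := by
      rw [AlgEquiv.smul_def, map_div₀, hσℓ]
    rw [this]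
    exact ValuationSubring.smul_mem_pointwise_smul _ _ _ h2

/-- The same with `σ⁻¹ x`: the exponent of `x` at `σ • A` is the exponent of `σ⁻¹ x` at `A`. -/
theorem zpow_unit_smul_iff {A : ValuationSubring Qb} (σ : Γ) {ℓ : ℕ} {x : Qb} {m : ℤ} :
    (x / (ℓ : Qb) ^ m ∈ σ • A ∧ (ℓ : Qb) ^ m / x ∈ σ • A) ↔
      (σ⁻¹ x / (ℓ : Qb) ^ m ∈ A ∧ (ℓ : Qb) ^ m / σ⁻¹ x ∈ A) := by
  constructor
  · rintro ⟨h1, h2⟩
    have := zpow_unit_smul σ⁻¹ h1 h2
    rwa [inv_smul_smul] at this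
  · rintro ⟨h1, h2⟩
    have := zpow_unit_smul σ h1 h2
    have e : σ (σ⁻¹ x) = x := by
      change (σ * σ⁻¹) x = x
      rw [mul_inv_cancel]
      rfl
    rwa [e] at this

/-! ### VAL-FIN -/

/-- An integer prime to `ℓ` is a unit at every valuation subring over `ℓ`. -/
theorem isUnitAt_intCast_of_not_dvd {A : ValuationSubring Qb} {ℓ : ℕ} (hℓ : ℓ.Prime)
    (hA : A.LiesOverPrime ℓ) {d : ℤ} (hd : ¬ (ℓ : ℤ) ∣ d) : IsUnitAt A (d : Qb) := by
  have hdA : (d : Qb) ∈ A := by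
    have : (d : Qb) = algebraMap ℤ Qb d := by simp
    rw [this]
    exact Fermat.Agent.S54.H94.mem_valuationSubring_of_isIntegral A isIntegral_algebraMap
  refine isUnitAt_of_not_mem_nonunits hdA fun hdn => ?_
  have hcop : IsCoprime (ℓ : ℤ) d :=
    ((Nat.prime_iff_prime_int.mp hℓ).irreducible.coprime_iff_not_dvd).mpr hd
  obtain ⟨u, v, huv⟩ := hcop
  have h1 : A.valuation ((u : Qb) * (ℓ : Qb) + (v : Qb) * (d : Qb)) = 1 := by
    have : ((u : Qb) * (ℓ : Qb) + (v : Qb) * (d : Qb)) = 1 := by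
      have := congrArg (fun z : ℤ => (z : Qb)) huv
      simpa using this
    rw [this, map_one]
  have hu : A.valuation (u : Qb) ≤ 1 := by
    rw [A.valuation_le_one_iff]
    have : (u : Qb) = algebraMap ℤ Qb u := by simp
    rw [this]
    exact Fermat.Agent.S54.H94.mem_valuationSubring_of_isIntegral A isIntegral_algebraMap
  have hv : A.valuation (v : Qb) ≤ 1 := by
    rw [A.valuation_le_one_iff]
    have : (v : Qb) = algebraMap ℤ Qb v := by simp
    rw [this]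
    exact Fermat.Agent.S54.H94.mem_valuationSubring_of_isIntegral A isIntegral_algebraMap
  have hℓ1 : A.valuation (ℓ : Qb) < 1 := valuation_prime_lt_one hA
  have hd1 : A.valuation (d : Qb) < 1 := (ValuationSubring.mem_nonunits_iff _).mp hdn
  have h2 : A.valuation ((u : Qb) * (ℓ : Qb) + (v : Qb) * (d : Qb)) < 1 := by
    refine lt_of_le_of_lt (Valuation.map_add _ _ _) (max_lt ?_ ?_)
    · rw [map_mul]
      calc A.valuation (u : Qb) * A.valuation (ℓ : Qb) ≤ 1 * A.valuation (ℓ : Qb) :=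
            mul_le_mul' hu le_rfl
        _ < 1 := by rwa [one_mul]
    · rw [map_mul]
      calc A.valuation (v : Qb) * A.valuation (d : Qb) ≤ 1 * A.valuation (d : Qb) :=
            mul_le_mul' hv le_rfl
        _ < 1 := by rwa [one_mul]
  rw [h1] at h2
  exact lt_irrefl _ h2

/-- An algebraic number is integral at every valuation subring outside finitely many primes. -/
theorem exists_finset_forall_mem (x : Qb) :
    ∃ T : Finset ℕ, ∀ ℓ : ℕ, ℓ.Prime → ℓ ∉ T → ∀ A : ValuationSubring Qb,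
      A.LiesOverPrime ℓ → x ∈ A := by
  have halg : IsAlgebraic ℤ x :=
    (IsFractionRing.isAlgebraic_iff ℤ ℚ Qb).mpr ((AlgebraicClosure.isAlgebraic ℚ).isAlgebraic x)
  obtain ⟨d, hd0, hint⟩ := halg.exists_integral_multiple
  refine ⟨d.natAbs.primeFactors, fun ℓ hℓ hℓT A hA => ?_⟩
  have hnd : ¬ (ℓ : ℤ) ∣ d := by
    intro h
    apply hℓT
    rw [Nat.mem_primeFactors]
    exact ⟨hℓ, Int.natCast_dvd.mp h, Int.natAbs_ne_zero.mpr hd0⟩
  have hu := isUnitAt_intCast_of_not_dvd hℓ hA hnd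
  have hdx : (d : Qb) * x ∈ A := by
    have : (d : Qb) * x = d • x := by
      rw [zsmul_eq_mul]
    rw [this]
    exact Fermat.Agent.S54.H94.mem_valuationSubring_of_isIntegral A hint
  have hd0' : (d : Qb) ≠ 0 := Int.cast_ne_zero.mpr hd0
  have : x = (d : Qb)⁻¹ * ((d : Qb) * x) := by
    rw [← mul_assoc, inv_mul_cancel₀ hd0', one_mul]
  rw [this]
  exact A.mul_mem _ _ hu.2 hdx

/-- **VAL-FIN.**  A nonzero algebraic number is a unit at every valuation subring of `ℚ̄` outside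
finitely many primes. -/
theorem finite_support (x : Qb) (_hx0 : x ≠ 0) :
    ∃ T : Finset ℕ, ∀ ℓ : ℕ, ℓ.Prime → ℓ ∉ T → ∀ A : ValuationSubring Qb,
      A.LiesOverPrime ℓ → x ∈ A ∧ x⁻¹ ∈ A := by
  classical
  obtain ⟨T₁, h₁⟩ := exists_finset_forall_mem x
  obtain ⟨T₂, h₂⟩ := exists_finset_forall_mem x⁻¹
  refine ⟨T₁ ∪ T₂, fun ℓ hℓ hℓT A hA => ⟨h₁ ℓ hℓ (fun h => hℓT (Finset.mem_union_left _ h)) A hA,
    h₂ ℓ hℓ (fun h => hℓT (Finset.mem_union_right _ h)) A hA⟩⟩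

end Fermat.Agent.S55.H56
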