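/-
Program C (S55), package C9b, leaf L2-P (designer helper93): the saturation statement (SAT)
(helper56).

Let `K ⊆ ℚ̄` be a number field unramified outside `S ∋ p` and `b` an integer-valued function on
the valuation subrings of `ℚ̄`, invariant under `Gal(ℚ̄/K)` and supported (outside `S`) over
finitely many primes.  Then a prime-to-`p` multiple `m • b` is the divisor, outside `S`, of an
element `x` of a number field `N ⊆ ℚ̄` unramified outside `S`: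
`x / ℓ ^ (m * b A)` is a unit of `A` for every `A` over a prime `ℓ ∉ S`.

Proof: `b` descends to the primes of `𝓞 K` (transitivity of `Gal(ℚ̄/K)` on the valuation
subrings with a given centre); the ideal `∏ 𝔭 ^ b(𝔭)` has a principal power `(y) = 𝔟 ^ h`, `h` the
class number; write `h = p ^ a * m` and take `x = y ^ (1 / p ^ a)`; `K(x)` is unramified outside
`S` by `H87.isUnramifiedOutside_sup_adjoin` (Kummer theory, `p ∈ S`).
-/
import Mathlib
import Fermat.Agent.S55.H56.ValCore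
import Fermat.Agent.S55.H33.Orb

set_option autoImplicit false

namespace Fermat.Agent.S55.H56

open NumberField IsDedekindDomain
open scoped Pointwise nonZeroDivisors

local notation "Qb" => AlgebraicClosure ℚ
local notation "Γ" => (AlgebraicClosure ℚ ≃ₐ[ℚ] AlgebraicClosure ℚ)
local notation "𝓑" => integralClosure ℤ (AlgebraicClosure ℚ)

/-! ### Transitivity of `Gal(ℚ̄/K)` on the valuation subrings with the same centre on `K` -/

theorem exists_smul_eq_of_centerInt_eq (K : IntermediateField ℚ Qb) (A A' : ValuationSubring Qb)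
    (h : centerInt K A = centerInt K A') : ∃ σ ∈ K.fixingSubgroup, σ • A = A' := by
  obtain ⟨σ, hσK, hσ⟩ := Fermat.Agent.S14.H4.exists_smul_mem_iff_of_forall_fixed K.fixingSubgroup
    (InfiniteGalois.fixingSubgroup_isClosed K) (Fermat.Agent.S54.H94.primeB A)
    (Fermat.Agent.S54.H94.primeB A') (fun b hb => by
      have hbK : (b : Qb) ∈ K := Fermat.Agent.S14.H4.coe_mem_of_fixed K b hb
      have hint : IsIntegral ℤ (⟨(b : Qb), hbK⟩ : K) := by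
        have h1 : IsIntegral ℤ (algebraMap K Qb ⟨(b : Qb), hbK⟩) := b.2
        exact (isIntegral_algebraMap_iff (algebraMap K Qb).injective).mp h1
      let a : 𝓞 K := ⟨⟨(b : Qb), hbK⟩, hint⟩
      have h1 : b ∈ Fermat.Agent.S54.H94.primeB A ↔ a ∈ centerInt K A := by
        rw [mem_centerInt_iff, Fermat.Agent.S54.H94.mem_primeB_iff]
        exact Iff.rfl
      have h2 : b ∈ Fermat.Agent.S54.H94.primeB A' ↔ a ∈ centerInt K A' := by
        rw [mem_centerInt_iff, Fermat.Agent.S54.H94.mem_primeB_iff]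
        exact Iff.rfl
      rw [h1, h2, h])
  have hP : Fermat.Agent.S54.H94.primeB A' = σ • Fermat.Agent.S54.H94.primeB A := by
    ext b
    rw [Ideal.mem_pointwise_smul_iff_inv_smul_mem, ← hσ (σ⁻¹ • b), smul_inv_smul]
  have hP' : Fermat.Agent.S54.H94.primeB A = σ⁻¹ • Fermat.Agent.S54.H94.primeB A' := by
    rw [hP, inv_smul_smul]
  refine ⟨σ, hσK, ?_⟩
  ext x
  rw [ValuationSubring.mem_pointwise_smul_iff_inv_smul_mem]
  constructor
  · intro hx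
    have := Fermat.Agent.S55.H33.map_mem_of_primeB_eq_smul A A' σ hP hx
    have h3 : σ (σ⁻¹ • x) = x := by
      change σ (σ⁻¹ x) = x
      exact σ.apply_symm_apply x
    rwa [h3] at this
  · intro hx
    exact Fermat.Agent.S55.H33.map_mem_of_primeB_eq_smul A' A σ⁻¹ hP' hx

/-! ### Ramification index one at a non-Galois level -/

variable {S : Finset Nat.Primes}

theorem valuation_le_of_mem_centerInt {K : IntermediateField ℚ Qb}
    (hK : K.IsUnramifiedOutside S) (ℓ : Nat.Primes) (hℓ : ℓ ∉ S) (A : ValuationSubring Qb)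
    (hA : A.LiesOverPrime (ℓ : ℕ)) {a : 𝓞 K} (ha : a ∈ centerInt K A) :
    A.valuation (((a : K)) : Qb) ≤ A.valuation (((ℓ : ℕ)) : Qb) := by
  rcases eq_or_ne (((a : K)) : Qb) 0 with h0 | h0
  · rw [h0, map_zero]
    exact zero_le
  obtain ⟨m, hm⟩ := exists_zpow_isUnitAt hK ℓ hℓ A hA (x := ((a : K) : Qb)) (a : K).2 h0
  have hv := valuation_eq_zpow_of_isUnitAt ℓ.2 h0 hm
  have hlt : A.valuation ((a : K) : Qb) < 1 :=
    (ValuationSubring.mem_nonunits_iff _).mp ((mem_centerInt_iff K A a).mp ha)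
  have hℓ1 := valuation_prime_lt_one hA
  have hℓ0 : (((ℓ : ℕ)) : Qb) ≠ 0 := Nat.cast_ne_zero.mpr ℓ.2.ne_zero
  have hpos : 0 < A.valuation (((ℓ : ℕ)) : Qb) :=
    zero_lt_iff.mpr ((Valuation.ne_zero_iff _).mpr hℓ0)
  have hm1 : 1 ≤ m := by
    by_contra hcon
    have hm0 : m ≤ 0 := by omega
    have h1 := zpow_le_zpow_right_of_le_one₀ hpos hℓ1.le hm0
    rw [zpow_zero, ← hv] at h1
    exact absurd hlt (not_lt.mpr h1)
  rw [hv]
  have h2 := zpow_le_zpow_right_of_le_one₀ hpos hℓ1.le hm1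
  rwa [zpow_one] at h2

theorem not_span_le_centerInt_sq {K : IntermediateField ℚ Qb}
    (hK : K.IsUnramifiedOutside S) (ℓ : Nat.Primes) (hℓ : ℓ ∉ S) (A : ValuationSubring Qb)
    (hA : A.LiesOverPrime (ℓ : ℕ)) :
    ¬ Ideal.span {(((ℓ : ℕ) : ℕ) : 𝓞 K)} ≤ centerInt K A ^ 2 := by
  intro hle
  have hmem : (((ℓ : ℕ) : ℕ) : 𝓞 K) ∈ centerInt K A ^ 2 := hle (Ideal.mem_span_singleton_self _)
  have key : ∀ x ∈ centerInt K A ^ 2,
      A.valuation ((x : K) : Qb) ≤ A.valuation (((ℓ : ℕ)) : Qb) ^ 2 := by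
    intro x hx
    rw [pow_two] at hx
    refine Submodule.mul_induction_on hx ?_ ?_
    · intro a ha b hb
      have e : (((a * b : 𝓞 K) : K) : Qb) = ((a : K) : Qb) * ((b : K) : Qb) := by simp
      rw [e, map_mul, pow_two]
      exact mul_le_mul' (valuation_le_of_mem_centerInt hK ℓ hℓ A hA ha)
        (valuation_le_of_mem_centerInt hK ℓ hℓ A hA hb)
    · intro x y hx hy
      have e : (((x + y : 𝓞 K) : K) : Qb) = ((x : K) : Qb) + ((y : K) : Qb) := by simp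
      rw [e]
      exact le_trans (Valuation.map_add _ _ _) (max_le hx hy)
  have h1 := key _ hmem
  have e : ((((((ℓ : ℕ) : ℕ) : 𝓞 K)) : K) : Qb) = ((ℓ : ℕ) : Qb) := by simp
  rw [e] at h1
  have hℓ1 := valuation_prime_lt_one hA
  have hℓ0 : (((ℓ : ℕ)) : Qb) ≠ 0 := Nat.cast_ne_zero.mpr ℓ.2.ne_zero
  have hpos : 0 < A.valuation (((ℓ : ℕ)) : Qb) :=
    zero_lt_iff.mpr ((Valuation.ne_zero_iff _).mpr hℓ0)
  exact absurd (pow_lt_self_of_lt_one₀ hpos hℓ1 (by norm_num)) (not_lt.mpr h1)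

/-! ### Dedekind domains: exact exponents and principal powers -/

/-- In a Dedekind domain, if `ℓ ∈ P`, `ℓ ∉ P ^ 2` and `(a) = P ^ n * J` with `P ∤ J`, then `a`
is `ℓ ^ n` up to elements outside `P`. -/
theorem exists_mul_eq_pow_mul_of_span_eq {R : Type*} [CommRing R] [IsDedekindDomain R]
    (P : Ideal R) [hPp : P.IsPrime] (hP : P ≠ ⊥) (ℓ : R) (hℓP : ℓ ∈ P)
    (hℓ2 : ¬ Ideal.span {ℓ} ≤ P ^ 2) (a : R) (n : ℕ) (J : Ideal R)
    (haJ : Ideal.span {a} = P ^ n * J) (hJ : ¬ P ∣ J) :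
    ∃ (c t : R), t ∉ P ∧ c ∉ P ∧ a * t = ℓ ^ n * c := by
  classical
  obtain ⟨I, hI⟩ : P ∣ Ideal.span {ℓ} :=
    Ideal.dvd_iff_le.mpr ((Ideal.span_singleton_le_iff_mem _).mpr hℓP)
  have hIP : ¬ I ≤ P := by
    intro h
    apply hℓ2
    rw [hI, pow_two]
    exact Ideal.mul_mono_right h
  have hInP : ¬ I ^ n ≤ P := by
    intro h
    exact hIP (hPp.le_of_pow_le h)
  obtain ⟨t, htI, htP⟩ := SetLike.not_le_iff_exists.mp hInP
  have hmem : a * t ∈ Ideal.span {ℓ ^ n} := by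
    have h1 : a * t ∈ Ideal.span {a} * I ^ n :=
      Ideal.mul_mem_mul (Ideal.mem_span_singleton_self a) htI
    have h2 : Ideal.span {a} * I ^ n = Ideal.span {ℓ ^ n} * J := by
      have e1 : Ideal.span {ℓ ^ n} = P ^ n * I ^ n := by
        rw [← Ideal.span_singleton_pow, hI, mul_pow]
      rw [e1, haJ]
      exact mul_right_comm _ _ _
    rw [h2] at h1
    exact Ideal.mul_le_left h1
  obtain ⟨c, hc⟩ := Ideal.mem_span_singleton'.mp hmem
  refine ⟨c, t, htP, ?_, by rw [← hc, mul_comm]⟩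
  intro hcP
  obtain ⟨C', hC'⟩ : P ∣ Ideal.span {c} :=
    Ideal.dvd_iff_le.mpr ((Ideal.span_singleton_le_iff_mem _).mpr hcP)
  have h3 : P ^ n * (J * Ideal.span {t}) = P ^ n * (P * (I ^ n * C')) := by
    calc P ^ n * (J * Ideal.span {t}) = Ideal.span {a} * Ideal.span {t} := by
          rw [haJ, mul_assoc]
      _ = Ideal.span {a * t} := by rw [Ideal.span_singleton_mul_span_singleton]
      _ = Ideal.span {c * ℓ ^ n} := by rw [hc]
      _ = Ideal.span {c} * Ideal.span {ℓ} ^ n := by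
          rw [Ideal.span_singleton_pow, Ideal.span_singleton_mul_span_singleton]
      _ = P ^ n * (P * (I ^ n * C')) := by
          rw [hC', hI, mul_pow]; ac_rfl
  have hPn : P ^ n ≠ 0 := pow_ne_zero n (by rwa [Ideal.zero_eq_bot])
  have h4 := mul_left_cancel₀ hPn h3
  have h5 : P ∣ J * Ideal.span {t} := ⟨_, h4⟩
  rcases (Ideal.prime_of_isPrime hP hPp).dvd_or_dvd h5 with h | h
  · exact hJ h
  · exact htP ((Ideal.span_singleton_le_iff_mem _).mp (Ideal.dvd_iff_le.mp h))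

/-- In a Dedekind domain with finite class group, the `h`-th power of a nonzero ideal is
principal, `h` the class number. -/
theorem exists_pow_card_classGroup_eq_span {R : Type*} [CommRing R] [IsDedekindDomain R]
    [Fintype (ClassGroup R)] (I : Ideal R) (hI : I ≠ ⊥) :
    ∃ y : R, y ≠ 0 ∧ I ^ Fintype.card (ClassGroup R) = Ideal.span {y} := by
  have hI0 : I ∈ (Ideal R)⁰ := mem_nonZeroDivisors_of_ne_zero hI
  have hIh : I ^ Fintype.card (ClassGroup R) ∈ (Ideal R)⁰ := pow_mem hI0 _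
  have h1 : ClassGroup.mk0 ⟨I ^ Fintype.card (ClassGroup R), hIh⟩ = 1 := by
    have e : (⟨I ^ Fintype.card (ClassGroup R), hIh⟩ : (Ideal R)⁰) =
        ⟨I, hI0⟩ ^ Fintype.card (ClassGroup R) := rfl
    rw [e, map_pow, pow_card_eq_one]
  have h2 := (ClassGroup.mk0_eq_one_iff hIh).mp h1
  obtain ⟨y, hy⟩ := h2.principal
  refine ⟨y, ?_, hy⟩
  rintro rfl
  have h3 : I ^ Fintype.card (ClassGroup R) = ⊥ := by
    rw [hy]
    simp
  exact pow_ne_zero _ hI h3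

/-! ### The divisor of a product of prime powers -/

theorem natCast_mem_centerInt (K : IntermediateField ℚ Qb) {A : ValuationSubring Qb} {ℓ : ℕ}
    (hA : A.LiesOverPrime ℓ) : ((ℓ : ℕ) : 𝓞 K) ∈ centerInt K A := by
  rw [mem_centerInt_iff]
  have : (((((ℓ : ℕ)) : 𝓞 K) : K) : Qb) = (ℓ : Qb) := by simp
  rw [this]
  exact hA

theorem centerInt_ne_bot (K : IntermediateField ℚ Qb) {A : ValuationSubring Qb} {ℓ : ℕ}
    (hℓ : ℓ.Prime) (hA : A.LiesOverPrime ℓ) : centerInt K A ≠ ⊥ := by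
  intro h
  have h1 := natCast_mem_centerInt K hA
  rw [h, Ideal.mem_bot] at h1
  exact hℓ.ne_zero (by exact_mod_cast h1)

/-- If `(y) = (∏_{𝔮 ∈ F} 𝔮 ^ e 𝔮) ^ h` in `𝓞 K`, `K` unramified outside `S`, then at a valuation
subring `A` over `ℓ ∉ S` with centre `P` on `K`, the element `y / ℓ ^ (h * e P)` is a unit. -/
theorem isUnitAt_div_pow_of_span_eq {K : IntermediateField ℚ Qb} [NumberField K]
    (hK : K.IsUnramifiedOutside S) (ℓ : Nat.Primes) (hℓ : ℓ ∉ S) (A : ValuationSubring Qb)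
    (hA : A.LiesOverPrime (ℓ : ℕ)) (F : Finset (Ideal (𝓞 K)))
    (hF : ∀ 𝔮 ∈ F, 𝔮.IsPrime ∧ 𝔮 ≠ ⊥) (e : Ideal (𝓞 K) → ℕ) (he : ∀ 𝔮, 𝔮 ∉ F → e 𝔮 = 0)
    (h : ℕ) (y : 𝓞 K) (hy : (∏ 𝔮 ∈ F, 𝔮 ^ e 𝔮) ^ h = Ideal.span {y}) :
    IsUnitAt A (((y : K) : Qb) / ((ℓ : ℕ) : Qb) ^ (h * e (centerInt K A))) := by
  classical
  have hℓ0 : (((ℓ : ℕ)) : Qb) ≠ 0 := Nat.cast_ne_zero.mpr ℓ.2.ne_zero
  set P := centerInt K A with hPdef
  have hP0 : P ≠ ⊥ := centerInt_ne_bot K ℓ.2 hA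
  have hPp : P.IsPrime := centerInt_isPrime K A
  have hPprime : Prime P := Ideal.prime_of_isPrime hP0 hPp
  set J : Ideal (𝓞 K) := ∏ 𝔮 ∈ F.erase P, 𝔮 ^ e 𝔮 with hJdef
  have hprod : ∏ 𝔮 ∈ F, 𝔮 ^ e 𝔮 = P ^ e P * J := by
    by_cases hPF : P ∈ F
    · exact (Finset.mul_prod_erase F (fun 𝔮 => 𝔮 ^ e 𝔮) hPF).symm
    · rw [hJdef, Finset.erase_eq_of_notMem hPF, he P hPF, pow_zero, one_mul]
  have hJ : ¬ P ∣ J := by
    intro hdvd
    obtain ⟨𝔮, h𝔮, h𝔮dvd⟩ := (Prime.dvd_finsetProd_iff hPprime _).mp hdvd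
    have h1 : P ∣ 𝔮 := hPprime.dvd_of_dvd_pow h𝔮dvd
    have h2 : 𝔮 ≤ P := Ideal.dvd_iff_le.mp h1
    obtain ⟨h𝔮ne, h𝔮F⟩ := Finset.mem_erase.mp h𝔮
    have hmax : 𝔮.IsMaximal := (hF 𝔮 h𝔮F).1.isMaximal (hF 𝔮 h𝔮F).2
    exact h𝔮ne (hmax.eq_of_le hPp.ne_top h2)
  have hJh : ¬ P ∣ J ^ h := fun hdvd => hJ (hPprime.dvd_of_dvd_pow hdvd)
  have hspan : Ideal.span {y} = P ^ (h * e P) * J ^ h := by
    rw [← hy, hprod, mul_pow, ← pow_mul, mul_comm (e P) h]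
  obtain ⟨c, t, htP, hcP, hct⟩ := exists_mul_eq_pow_mul_of_span_eq P hP0 (((ℓ : ℕ) : ℕ) : 𝓞 K)
    (natCast_mem_centerInt K hA) (not_span_le_centerInt_sq hK ℓ hℓ A hA) y (h * e P) (J ^ h)
    hspan hJh
  have hu := (isUnitAt_of_not_mem_centerInt K A hcP).div (isUnitAt_of_not_mem_centerInt K A htP)
  have e1 : (((y : K)) : Qb) * ((t : K) : Qb) = ((ℓ : ℕ) : Qb) ^ (h * e P) * ((c : K) : Qb) := by
    have := congrArg (fun z : 𝓞 K => (((z : K)) : Qb)) hct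
    simpa using this
  have ht0 : ((t : K) : Qb) ≠ 0 := by
    intro h0
    apply htP
    have : t = 0 := by
      apply RingOfIntegers.ext
      exact Subtype.ext (by simpa using h0)
    rw [this]
    exact Ideal.zero_mem _
  have key : ((y : K) : Qb) / ((ℓ : ℕ) : Qb) ^ (h * e P) = ((c : K) : Qb) / ((t : K) : Qb) := by
    have hn : ((ℓ : ℕ) : Qb) ^ (h * e P) ≠ 0 := pow_ne_zero _ hℓ0
    rw [div_eq_div_iff hn ht0, e1]
    ring
  rw [key]
  exact hu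

/-! ### (SAT) -/

/-- **(SAT)**: a `Gal(ℚ̄/K)`-invariant finitely supported integer-valued function on the
valuation subrings of `ℚ̄` outside `S` has a prime-to-`p` multiple which is the divisor of an
element of a number field unramified outside `S` (`p ∈ S`). -/
theorem sat {p : ℕ} [Fact p.Prime] (hpS : ExtCitation.pPrime p ∈ S)
    {K : IntermediateField ℚ Qb} (hK : K.IsUnramifiedOutside S)
    (b : ValuationSubring Qb → ℤ)
    (hinv : ∀ σ ∈ K.fixingSubgroup, ∀ A : ValuationSubring Qb, b (σ • A) = b A)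
    (hfin : ∃ T : Finset ℕ, ∀ ℓ : Nat.Primes, ℓ ∉ S → ∀ A : ValuationSubring Qb,
      A.LiesOverPrime (ℓ : ℕ) → b A ≠ 0 → (ℓ : ℕ) ∈ T) :
    ∃ m : ℕ, 0 < m ∧ ¬ p ∣ m ∧ ∃ (N : IntermediateField ℚ Qb) (x : Qb),
      N.IsUnramifiedOutside S ∧ x ∈ N ∧ x ≠ 0 ∧
      ∀ ℓ : Nat.Primes, ℓ ∉ S → ∀ A : ValuationSubring Qb, A.LiesOverPrime (ℓ : ℕ) →
        x / ((ℓ : ℕ) : Qb) ^ ((m : ℤ) * b A) ∈ A ∧ ((ℓ : ℕ) : Qb) ^ ((m : ℤ) * b A) / x ∈ A := by
  classical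
  have hfd := hK.1
  have hNF : NumberField K := ⟨⟩
  obtain ⟨T, hT⟩ := hfin
  -- descent of `b` to the primes of `𝓞 K`
  let good : Ideal (𝓞 K) → Prop := fun 𝔮 => ∃ A : ValuationSubring Qb,
    (∃ ℓ : Nat.Primes, ℓ ∉ S ∧ A.LiesOverPrime (ℓ : ℕ)) ∧ centerInt K A = 𝔮
  let c : Ideal (𝓞 K) → ℤ := fun 𝔮 => if hq : good 𝔮 then b (Classical.choose hq) else 0
  have hc : ∀ ℓ : Nat.Primes, ℓ ∉ S → ∀ A : ValuationSubring Qb, A.LiesOverPrime (ℓ : ℕ) →
      c (centerInt K A) = b A := by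
    intro ℓ hℓ A hA
    have hq : good (centerInt K A) := ⟨A, ⟨ℓ, hℓ, hA⟩, rfl⟩
    have h1 : c (centerInt K A) = b (Classical.choose hq) := dif_pos hq
    obtain ⟨σ, hσ, hσA⟩ := exists_smul_eq_of_centerInt_eq K _ A (Classical.choose_spec hq).2
    have h2 := hinv σ hσ (Classical.choose hq)
    rw [hσA] at h2
    rw [h1]
    exact h2.symm
  -- the finite set of primes
  let d : ℕ := ∏ ℓ ∈ T.filter Nat.Prime, ℓ
  have hd0 : d ≠ 0 :=
    Finset.prod_ne_zero_iff.mpr (fun ℓ hℓ => (Finset.mem_filter.mp hℓ).2.ne_zero)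
  let I₀ : Ideal (𝓞 K) := Ideal.span {(d : 𝓞 K)}
  have hI₀ : I₀ ≠ ⊥ := by
    rw [Ne, Ideal.span_singleton_eq_bot]
    exact_mod_cast hd0
  let F : Finset (Ideal (𝓞 K)) := (UniqueFactorizationMonoid.normalizedFactors I₀).toFinset
  have hF : ∀ 𝔮 ∈ F, 𝔮.IsPrime ∧ 𝔮 ≠ ⊥ := by
    intro 𝔮 h𝔮
    rw [Multiset.mem_toFinset, Ideal.mem_normalizedFactors_iff hI₀] at h𝔮
    refine ⟨h𝔮.1, fun h => hI₀ ?_⟩
    have h2 := h𝔮.2
    rw [h] at h2
    exact le_bot_iff.mp h2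
  have hcF : ∀ 𝔮, 𝔮 ∉ F → c 𝔮 = 0 := by
    intro 𝔮 h𝔮
    by_contra hne
    apply h𝔮
    by_cases hq : good 𝔮
    · have h1 : c 𝔮 = b (Classical.choose hq) := dif_pos hq
      obtain ⟨⟨ℓ, hℓ, hA⟩, hcen⟩ := Classical.choose_spec hq
      have hℓT : (ℓ : ℕ) ∈ T := hT ℓ hℓ _ hA (by rwa [← h1])
      rw [Multiset.mem_toFinset, Ideal.mem_normalizedFactors_iff hI₀]
      refine ⟨by rw [← hcen]; infer_instance, ?_⟩
      rw [Ideal.span_singleton_le_iff_mem, ← hcen]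
      have hdvd : (ℓ : ℕ) ∣ d :=
        Finset.dvd_prod_of_mem _ (Finset.mem_filter.mpr ⟨hℓT, ℓ.2⟩)
      obtain ⟨d', hd'⟩ := hdvd
      have e : (d : 𝓞 K) = (((ℓ : ℕ) : ℕ) : 𝓞 K) * (d' : 𝓞 K) := by
        rw [hd']
        push_cast
        rfl
      rw [e]
      exact Ideal.mul_mem_right _ _ (natCast_mem_centerInt K hA)
    · exact absurd (dif_neg hq) hne
  -- positive and negative parts
  let ep : Ideal (𝓞 K) → ℕ := fun 𝔮 => (c 𝔮).toNat
  let en : Ideal (𝓞 K) → ℕ := fun 𝔮 => (- c 𝔮).toNat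
  have hep : ∀ 𝔮, 𝔮 ∉ F → ep 𝔮 = 0 := fun 𝔮 h => by simp [ep, hcF 𝔮 h]
  have hen : ∀ 𝔮, 𝔮 ∉ F → en 𝔮 = 0 := fun 𝔮 h => by simp [en, hcF 𝔮 h]
  have hepn : ∀ 𝔮, ((ep 𝔮 : ℕ) : ℤ) - ((en 𝔮 : ℕ) : ℤ) = c 𝔮 := fun 𝔮 =>
    Int.toNat_sub_toNat_neg (c 𝔮)
  have hne : ∀ e : Ideal (𝓞 K) → ℕ, (∏ 𝔮 ∈ F, 𝔮 ^ e 𝔮) ≠ ⊥ := by
    intro e
    rw [← Ideal.zero_eq_bot]
    exact Finset.prod_ne_zero_iff.mpr (fun 𝔮 h𝔮 => pow_ne_zero _ (hF 𝔮 h𝔮).2)
  -- the class number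
  set h := Fintype.card (ClassGroup (𝓞 K)) with hh
  obtain ⟨yp, hyp0, hyp⟩ := exists_pow_card_classGroup_eq_span _ (hne ep)
  obtain ⟨yn, hyn0, hyn⟩ := exists_pow_card_classGroup_eq_span _ (hne en)
  have hh0 : h ≠ 0 := Fintype.card_ne_zero
  have hp : p.Prime := Fact.out
  obtain ⟨a, m, hpm, hham⟩ := Nat.exists_eq_pow_mul_and_not_dvd hh0 p hp.ne_one
  have hm0 : m ≠ 0 := by
    rintro rfl
    exact hpm (dvd_zero p)
  have hypQ : ((yp : K) : Qb) ≠ 0 := by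
    intro h0
    apply hyp0
    apply RingOfIntegers.ext
    exact Subtype.ext (by simpa using h0)
  have hynQ : ((yn : K) : Qb) ≠ 0 := by
    intro h0
    apply hyn0
    apply RingOfIntegers.ext
    exact Subtype.ext (by simpa using h0)
  set y : Qb := ((yp : K) : Qb) / ((yn : K) : Qb) with hydef
  have hyK : y ∈ K := div_mem (yp : K).2 (yn : K).2
  have hy0 : y ≠ 0 := div_ne_zero hypQ hynQ
  have hyunit : ∀ ℓ : Nat.Primes, ℓ ∉ S → ∀ A : ValuationSubring Qb, A.LiesOverPrime (ℓ : ℕ) →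
      IsUnitAt A (y / ((ℓ : ℕ) : Qb) ^ ((h : ℤ) * b A)) := by
    intro ℓ hℓ A hA
    have hℓ0 : (((ℓ : ℕ)) : Qb) ≠ 0 := Nat.cast_ne_zero.mpr ℓ.2.ne_zero
    have h1 := isUnitAt_div_pow_of_span_eq hK ℓ hℓ A hA F hF ep hep h yp hyp
    have h2 := isUnitAt_div_pow_of_span_eq hK ℓ hℓ A hA F hF en hen h yn hyn
    have h3 := h1.div h2
    have hexp : (h : ℤ) * b A = ((h * ep (centerInt K A) : ℕ) : ℤ) -
        ((h * en (centerInt K A) : ℕ) : ℤ) := by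
      rw [← hc ℓ hℓ A hA, ← hepn (centerInt K A)]
      push_cast
      ring
    have e : y / ((ℓ : ℕ) : Qb) ^ ((h : ℤ) * b A) =
        (((yp : K) : Qb) / ((ℓ : ℕ) : Qb) ^ (h * ep (centerInt K A))) /
          (((yn : K) : Qb) / ((ℓ : ℕ) : Qb) ^ (h * en (centerInt K A))) := by
      rw [hexp, zpow_sub₀ hℓ0, zpow_natCast, zpow_natCast, hydef]
      have hn1 : ((ℓ : ℕ) : Qb) ^ (h * ep (centerInt K A)) ≠ 0 := pow_ne_zero _ hℓ0
      have hn2 : ((ℓ : ℕ) : Qb) ^ (h * en (centerInt K A)) ≠ 0 := pow_ne_zero _ hℓ0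
      field_simp
    rw [e]
    exact h3
  -- the `p ^ a`-th root
  have hpa : 0 < p ^ a := pow_pos hp.pos a
  obtain ⟨x, hx⟩ := IsAlgClosed.exists_pow_nat_eq y hpa
  have hx0 : x ≠ 0 := by
    rintro rfl
    rw [zero_pow hpa.ne'] at hx
    exact hy0 hx.symm
  have hexp2 : ∀ z : ℤ, ((m : ℤ) * z) * ((p ^ a : ℕ) : ℤ) = (h : ℤ) * z := by
    intro z
    rw [hham]
    push_cast
    ring
  have hpow : ∀ (ℓ : Nat.Primes) (z : ℤ),
      (((ℓ : ℕ) : Qb) ^ ((m : ℤ) * z)) ^ (p ^ a) = ((ℓ : ℕ) : Qb) ^ ((h : ℤ) * z) := by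
    intro ℓ z
    rw [← zpow_natCast, ← zpow_mul, hexp2]
  refine ⟨m, Nat.pos_of_ne_zero hm0, hpm, K ⊔ IntermediateField.adjoin ℚ {x}, x, ?_, ?_, hx0, ?_⟩
  · refine Fermat.Agent.S55.H87.isUnramifiedOutside_sup_adjoin hpa.ne'
      (Fermat.Agent.S55.H87.coprime_pow_of_mem hpS a) hK (by rw [hx]; exact hyK) ?_
    intro ℓ hℓ A hA
    have hℓ0 : (((ℓ : ℕ)) : Qb) ≠ 0 := Nat.cast_ne_zero.mpr ℓ.2.ne_zero
    refine ⟨((ℓ : ℕ) : Qb) ^ ((m : ℤ) * b A), zpow_mem (natCast_mem K _) _,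
      zpow_ne_zero _ hℓ0, ?_, ?_⟩
    · rw [hx, hpow]
      exact (hyunit ℓ hℓ A hA).1
    · rw [hx, hpow]
      have := (hyunit ℓ hℓ A hA).2
      rwa [inv_div] at this
  · exact (le_sup_right : IntermediateField.adjoin ℚ {x} ≤ K ⊔ IntermediateField.adjoin ℚ {x})
      (IntermediateField.mem_adjoin_simple_self ℚ x)
  · intro ℓ hℓ A hA
    refine ⟨Fermat.Agent.S55.H87.mem_of_pow_mem A hpa ?_,
      Fermat.Agent.S55.H87.mem_of_pow_mem A hpa ?_⟩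
    · rw [div_pow, hx, hpow]
      exact (hyunit ℓ hℓ A hA).1
    · rw [div_pow, hx, hpow]
      have := (hyunit ℓ hℓ A hA).2
      rwa [inv_div] at this

end Fermat.Agent.S55.H56
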