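/-
Program C (S55), package C9b, leaf (A3) `hlam` (helper56): the `F`-Frobenius at a valuation
subring, with the exponent exposed (`q` = the cardinality of the residue field of the invariants
of `Gal(ℚ̄/F)`).  This is helper85's `H85.exists_frob_fixing`, proof copied line by line, with
the existential `q` replaced by its value.
-/
import Mathlib
import Fermat.Agent.S55.H85.Dec

set_option autoImplicit false

namespace Fermat.Agent.S55.H56

open NumberField
open scoped Pointwise
open Fermat.Agent.S54.H94 Fermat.Agent.S14.H4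

local notation "Qb" => AlgebraicClosure ℚ
local notation "Γ" => (AlgebraicClosure ℚ ≃ₐ[ℚ] AlgebraicClosure ℚ)
local notation "𝓑" => integralClosure ℤ (AlgebraicClosure ℚ)

attribute [local instance] Fermat.Agent.S54.H94.topB Fermat.Agent.S54.H94.discreteTopB

/-- The `F`-Frobenius at `A`: an element of `Gal(ℚ̄/F)` acting as `x ↦ x ^ q` on the residue
field `𝓑 ⧸ primeB A`, `q` the cardinality of the residue field of the invariants of `Gal(ℚ̄/F)`,
such that every element of `Gal(ℚ̄/F)` stabilising `primeB A` acts on any finite subset of the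
residue field as `x ↦ x ^ (q ^ n)`. -/
theorem exists_frob_fixedCard (F : IntermediateField ℚ Qb) [FiniteDimensional ℚ F] {ℓ : ℕ}
    (hℓ : ℓ.Prime) {A : ValuationSubring Qb} (hA : A.LiesOverPrime ℓ) :
    ∃ φ : Γ, 0 < Nat.card (FixedPoints.subalgebra ℤ 𝓑 F.fixingSubgroup ⧸
        (primeB A).under (FixedPoints.subalgebra ℤ 𝓑 F.fixingSubgroup)) ∧ φ ∈ F.fixingSubgroup ∧
      (∀ b : 𝓑, φ • b - b ^ Nat.card (FixedPoints.subalgebra ℤ 𝓑 F.fixingSubgroup ⧸
        (primeB A).under (FixedPoints.subalgebra ℤ 𝓑 F.fixingSubgroup)) ∈ primeB A) ∧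
      ∀ d ∈ F.fixingSubgroup, (∀ b : 𝓑, d • b ∈ primeB A ↔ b ∈ primeB A) →
        ∀ T : Set (𝓑 ⧸ primeB A), T.Finite →
          ∃ n : ℕ, ∀ b : 𝓑, Ideal.Quotient.mk (primeB A) b ∈ T →
            d • b - b ^ (Nat.card (FixedPoints.subalgebra ℤ 𝓑 F.fixingSubgroup ⧸
              (primeB A).under (FixedPoints.subalgebra ℤ 𝓑 F.fixingSubgroup)) ^ n) ∈ primeB A := by
  have hcpt : CompactSpace F.fixingSubgroup :=
    isCompact_iff_compactSpace.mp (IntermediateField.fixingSubgroup_isClosed F).isCompact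
  have hlies : (primeB A).LiesOver
      ((primeB A).under (FixedPoints.subalgebra ℤ 𝓑 F.fixingSubgroup)) := ⟨rfl⟩
  have hlies' := primeB_liesOver hℓ hA
  have hmaxℓ : (Ideal.span {(ℓ : ℤ)}).IsMaximal :=
    PrincipalIdealRing.isMaximal_of_irreducible (Nat.prime_iff_prime_int.mp hℓ).irreducible
  have hQmax : (primeB A).IsMaximal :=
    Ideal.IsMaximal.of_liesOver_isMaximal (primeB A) (Ideal.span {(ℓ : ℤ)})
  have hint : Algebra.IsIntegral (FixedPoints.subalgebra ℤ 𝓑 F.fixingSubgroup) 𝓑 :=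
    Algebra.IsInvariant.isIntegral_of_profinite (G := F.fixingSubgroup)
  have hPmax : ((primeB A).under (FixedPoints.subalgebra ℤ 𝓑 F.fixingSubgroup)).IsMaximal :=
    Ideal.IsMaximal.under _ _
  let _ : Field (FixedPoints.subalgebra ℤ 𝓑 F.fixingSubgroup ⧸
      (primeB A).under (FixedPoints.subalgebra ℤ 𝓑 F.fixingSubgroup)) := Ideal.Quotient.field _
  let _ : Field (𝓑 ⧸ primeB A) := Ideal.Quotient.field _
  have hfin : Finite (FixedPoints.subalgebra ℤ 𝓑 F.fixingSubgroup ⧸
      (primeB A).under (FixedPoints.subalgebra ℤ 𝓑 F.fixingSubgroup)) := by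
    have hT := Fermat.Agent.S55.H85.finite_residue_image F (primeB A) hℓ.ne_zero
      (Fermat.Agent.S55.H85.natCast_mem_primeB hA)
    refine Set.finite_univ_iff.mp (Set.Finite.of_finite_image (hT.subset ?_)
      (algebraMap (FixedPoints.subalgebra ℤ 𝓑 F.fixingSubgroup ⧸
        (primeB A).under (FixedPoints.subalgebra ℤ 𝓑 F.fixingSubgroup))
        (𝓑 ⧸ primeB A)).injective.injOn)
    rintro _ ⟨x, -, rfl⟩
    obtain ⟨r, rfl⟩ := Ideal.Quotient.mk_surjective x
    exact ⟨(r : 𝓑), coe_mem_of_fixed F r.1 (fun h hh => r.2 ⟨h, hh⟩), rfl⟩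
  let _ : Fintype (FixedPoints.subalgebra ℤ 𝓑 F.fixingSubgroup ⧸
      (primeB A).under (FixedPoints.subalgebra ℤ 𝓑 F.fixingSubgroup)) := Fintype.ofFinite _
  obtain ⟨g, hg⟩ := Ideal.Quotient.stabilizerHom_surjective_of_profinite
    (G := F.fixingSubgroup) ((primeB A).under (FixedPoints.subalgebra ℤ 𝓑 F.fixingSubgroup))
    (primeB A) (FiniteField.frobeniusAlgEquivOfAlgebraic
      (FixedPoints.subalgebra ℤ 𝓑 F.fixingSubgroup ⧸
        (primeB A).under (FixedPoints.subalgebra ℤ 𝓑 F.fixingSubgroup)) (𝓑 ⧸ primeB A))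
  rw [Nat.card_eq_fintype_card]
  refine ⟨g.1.1, Fintype.card_pos, g.1.2, fun b => ?_, fun d hd hdQ T hT => ?_⟩
  · have h := DFunLike.congr_fun hg (Ideal.Quotient.mk _ b)
    rw [Ideal.Quotient.stabilizerHom_apply] at h
    rw [← Ideal.Quotient.eq, map_pow]
    exact h
  · have hstab : (⟨d, hd⟩ : F.fixingSubgroup) ∈
        MulAction.stabilizer F.fixingSubgroup (primeB A) := by
      rw [MulAction.mem_stabilizer_iff]
      ext b
      change b ∈ d • primeB A ↔ b ∈ primeB A
      rw [Ideal.mem_pointwise_smul_iff_inv_smul_mem]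
      have h1 := hdQ (d⁻¹ • b)
      rw [smul_inv_smul] at h1
      exact h1.symm
    obtain ⟨n, hn⟩ := Fermat.Agent.S55.H85.exists_pow_card_pow_of_finite
      (Ideal.Quotient.stabilizerHom (primeB A)
        ((primeB A).under (FixedPoints.subalgebra ℤ 𝓑 F.fixingSubgroup)) F.fixingSubgroup
        ⟨⟨d, hd⟩, hstab⟩) T hT
    refine ⟨n, fun b hb => ?_⟩
    have h := hn _ hb
    rw [Ideal.Quotient.stabilizerHom_apply] at h
    rw [← Ideal.Quotient.eq, map_pow]
    exact h

end Fermat.Agent.S55.H56
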