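/-
Program C (S55), package C9b, leaf (A3) `hlam` (helper56), part (H3): (DEC+), THE `F`-FROBENIUS
AT A VALUATION SUBRING WITH ITS NORMALISATION.

`H93.DecStatement` (helper85, `H85.decStatement`) produces a generator `φ` of the decomposition
group modulo the unramified levels.  The invariant formula (`hlam`) needs `φ` to be THE Frobenius:
`φ b ≡ b ^ N  (mod 𝔓_A)` for all algebraic integers `b`, with `N = #(𝓞 F ⧸ 𝔭)`, `𝔭` the prime
of `F` under `A`.  helper85's proof constructs exactly this element; here it is exported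
(`exists_frobenius`), together with its uniqueness on the levels where `A` is unramified
(`frobenius_restrict_eq`).  The proof of `exists_frob_card` follows `H85.exists_frob_fixing`
line by line (helper85), with the exponent identified.
-/
import Mathlib
import Fermat.Agent.S55.H85.Dec
import Fermat.Agent.S55.H56.FrobCore
import Fermat.Agent.S55.H56.ValCore

set_option autoImplicit false

namespace Fermat.Agent.S55.H56

open NumberField
open scoped Pointwise
open Fermat.Agent.S54.H94 Fermat.Agent.S14.H4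

local notation "Qb" => AlgebraicClosure ℚ
local notation "Γ" => (AlgebraicClosure ℚ ≃ₐ[ℚ] AlgebraicClosure ℚ)
local notation "𝓑" => integralClosure ℤ (AlgebraicClosure ℚ)

attribute [local instance] Fermat.Agent.S54.H94.topB Fermat.Agent.S54.H94.discreteTopB

/-- The integers of `F` are fixed by `Gal(ℚ̄/F)`. -/
theorem inclInt_mem_fixedPoints (F : IntermediateField ℚ Qb) (x : 𝓞 F) :
    inclInt F x ∈ FixedPoints.subalgebra ℤ 𝓑 F.fixingSubgroup := by
  intro m
  apply Subtype.ext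
  show (m : Γ) ((x : F) : Qb) = ((x : F) : Qb)
  exact m.2 ⟨_, (x : F).2⟩

/-- The residue field of the invariants of `Gal(ℚ̄/F)` at the prime under `A` is the residue
field of `𝓞 F` at the centre of `A`. -/
theorem natCard_fixedPoints_quot (F : IntermediateField ℚ Qb) (A : ValuationSubring Qb) :
    Nat.card (FixedPoints.subalgebra ℤ 𝓑 F.fixingSubgroup ⧸
      (primeB A).under (FixedPoints.subalgebra ℤ 𝓑 F.fixingSubgroup)) =
    Nat.card (𝓞 F ⧸ centerInt F A) := by
  let g : 𝓞 F →+* FixedPoints.subalgebra ℤ 𝓑 F.fixingSubgroup :=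
    (inclInt F).codRestrict (FixedPoints.subalgebra ℤ 𝓑 F.fixingSubgroup)
      (inclInt_mem_fixedPoints F)
  let f : 𝓞 F →+* (FixedPoints.subalgebra ℤ 𝓑 F.fixingSubgroup ⧸
      (primeB A).under (FixedPoints.subalgebra ℤ 𝓑 F.fixingSubgroup)) :=
    (Ideal.Quotient.mk _).comp g
  have hg : ∀ x : 𝓞 F, ((g x : FixedPoints.subalgebra ℤ 𝓑 F.fixingSubgroup) : 𝓑) = inclInt F x :=
    fun x => rfl
  have hgsurj : Function.Surjective g := by
    intro r
    have hrF : ((r : 𝓑) : Qb) ∈ F := coe_mem_of_fixed F r.1 (fun h hh => r.2 ⟨h, hh⟩)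
    have hint : IsIntegral ℤ (⟨((r : 𝓑) : Qb), hrF⟩ : F) := by
      have h1 : IsIntegral ℤ (algebraMap F Qb ⟨((r : 𝓑) : Qb), hrF⟩) := (r : 𝓑).2
      exact (isIntegral_algebraMap_iff (algebraMap F Qb).injective).mp h1
    refine ⟨⟨⟨((r : 𝓑) : Qb), hrF⟩, hint⟩, ?_⟩
    apply Subtype.ext
    apply Subtype.ext
    rfl
  have hsurj : Function.Surjective f :=
    Ideal.Quotient.mk_surjective.comp hgsurj
  have hker : RingHom.ker f = centerInt F A := by
    ext x
    rw [RingHom.mem_ker]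
    show Ideal.Quotient.mk _ (g x) = 0 ↔ _
    rw [Ideal.Quotient.eq_zero_iff_mem, Ideal.under, Ideal.mem_comap, centerInt, Ideal.mem_comap]
    exact Iff.rfl
  exact Nat.card_congr
    ((RingHom.quotientKerEquivOfSurjective hsurj).symm.trans (Ideal.quotEquivOfEq hker)).toEquiv

/-- The `F`-Frobenius at `A` (helper85's `H85.exists_frob_fixing` with the exponent identified):
an element of `Gal(ℚ̄/F)` acting as `x ↦ x ^ N` on the residue field `𝓑 ⧸ primeB A`,
`N = #(𝓞 F ⧸ centerInt F A)`, such that every element of `Gal(ℚ̄/F)` stabilising `primeB A` acts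
on any finite subset of the residue field as `x ↦ x ^ (N ^ n)`. -/
theorem exists_frob_card (F : IntermediateField ℚ Qb) [FiniteDimensional ℚ F] {ℓ : ℕ}
    (hℓ : ℓ.Prime) {A : ValuationSubring Qb} (hA : A.LiesOverPrime ℓ) :
    ∃ φ : Γ, 0 < Nat.card (𝓞 F ⧸ centerInt F A) ∧ φ ∈ F.fixingSubgroup ∧
      (∀ b : 𝓑, φ • b - b ^ Nat.card (𝓞 F ⧸ centerInt F A) ∈ primeB A) ∧
      ∀ d ∈ F.fixingSubgroup, (∀ b : 𝓑, d • b ∈ primeB A ↔ b ∈ primeB A) →
        ∀ T : Set (𝓑 ⧸ primeB A), T.Finite →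
          ∃ n : ℕ, ∀ b : 𝓑, Ideal.Quotient.mk (primeB A) b ∈ T →
            d • b - b ^ (Nat.card (𝓞 F ⧸ centerInt F A) ^ n) ∈ primeB A := by
  have h := exists_frob_fixedCard F hℓ hA
  rw [natCard_fixedPoints_quot F A] at h
  exact h

/-- An automorphism acting as `b ↦ b ^ N` modulo `primeB A` (`N > 0`) stabilises `primeB A`. -/
theorem smul_mem_primeB_iff_of_frob {A : ValuationSubring Qb} {N : ℕ} (hN : 0 < N) {φ : Γ}
    (hφ : ∀ b : 𝓑, φ • b - b ^ N ∈ primeB A) (b : 𝓑) : φ • b ∈ primeB A ↔ b ∈ primeB A := by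
  have h0 : b ^ N ∈ primeB A ↔ b ∈ primeB A := (primeB_isPrime A).pow_mem_iff_mem N hN
  rw [← h0]
  constructor
  · intro h
    have h1 := (primeB A).sub_mem h (hφ b)
    simpa using h1
  · intro h
    have h1 := (primeB A).add_mem (hφ b) h
    simpa using h1

/-- **(DEC+)**: the `F`-Frobenius at `A`.  An element `φ` of the decomposition group of `A`
fixing `F`, with `φ b ≡ b ^ N` modulo the prime of `𝓑` cut out by `A` for every algebraic integer
`b` (`N = #(𝓞 F ⧸ centerInt F A)`), and generating the decomposition group of `A` in `Gal(ℚ̄/F)`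
modulo every finite level `K ⊇ F` in which `A` is unramified (`H93.DecStatement`, verbatim). -/
theorem exists_frobenius (F : IntermediateField ℚ Qb) [FiniteDimensional ℚ F] {ℓ : ℕ}
    (hℓ : ℓ.Prime) {A : ValuationSubring Qb} (hA : A.LiesOverPrime ℓ) :
    ∃ φ : Γ, φ ∈ A.decompositionSubgroup ℚ ∧ φ ∈ F.fixingSubgroup ∧
      0 < Nat.card (𝓞 F ⧸ centerInt F A) ∧
      (∀ b : 𝓑, φ • b - b ^ Nat.card (𝓞 F ⧸ centerInt F A) ∈ primeB A) ∧
      ∀ K : IntermediateField ℚ Qb, FiniteDimensional ℚ K → F ≤ K →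
        (∀ g ∈ F.fixingSubgroup, ∀ x ∈ K, g x ∈ K) →
        A.inertiaSubgroupIn ℚ ≤ K.fixingSubgroup →
        ∀ d : Γ, d ∈ A.decompositionSubgroup ℚ → d ∈ F.fixingSubgroup →
          ∃ k : ℕ, (φ ^ k)⁻¹ * d ∈ K.fixingSubgroup := by
  obtain ⟨φ, hq, hφF, hφ, hall⟩ := exists_frob_card F hℓ hA
  set q := Nat.card (𝓞 F ⧸ centerInt F A) with hqdef
  have hφQ : ∀ b : 𝓑, φ • b ∈ primeB A ↔ b ∈ primeB A := smul_mem_primeB_iff_of_frob hq hφ
  have hφD : φ ∈ A.decompositionSubgroup ℚ :=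
    Fermat.Agent.S55.H85.mem_decompositionSubgroup_of_primeB φ hφQ
  have hpow : ∀ (m : ℕ) (b : 𝓑), Ideal.Quotient.mk (primeB A) ((φ ^ m) • b) =
      (Ideal.Quotient.mk (primeB A) b) ^ (q ^ m) := by
    intro m
    induction m with
    | zero => intro b; simp
    | succ m ih =>
      intro b
      rw [pow_succ, mul_smul, ih (φ • b), Ideal.Quotient.eq.mpr (hφ b), map_pow, ← pow_mul,
        pow_succ, mul_comm]
  refine ⟨φ, hφD, hφF, hq, hφ, fun K hK _ _ hIK d hdD hdF => ?_⟩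
  have := hK
  obtain ⟨n, hn⟩ := hall d hdF (fun b => Fermat.Agent.S55.H85.smul_mem_primeB_iff hdD b) _
    (Fermat.Agent.S55.H85.finite_residue_image K (primeB A) hℓ.ne_zero
      (Fermat.Agent.S55.H85.natCast_mem_primeB hA))
  have hψ : (φ ^ n)⁻¹ ∈ A.decompositionSubgroup ℚ := inv_mem (pow_mem hφD n)
  have hσ : ∀ b : 𝓑, (b : Qb) ∈ K → ((φ ^ n)⁻¹ * d) • b - b ∈ primeB A := by
    intro b hb
    have h1 := hn b ⟨b, hb, rfl⟩
    have h2 : d • b - (φ ^ n) • b ∈ primeB A := by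
      rw [← Ideal.Quotient.eq, hpow n b, ← map_pow]
      exact Ideal.Quotient.eq.mpr h1
    have h3 := (Fermat.Agent.S55.H85.smul_mem_primeB_iff hψ (d • b - (φ ^ n) • b)).mpr h2
    rw [smul_sub, inv_smul_smul, ← mul_smul] at h3
    exact h3
  obtain ⟨τ, hτK, hτQ⟩ := exists_lift_inertia K (primeB A) ((φ ^ n)⁻¹ * d) hσ
  have hτI : τ ∈ K.fixingSubgroup :=
    hIK (Fermat.Agent.S55.H85.mem_inertiaSubgroupIn_of_primeB τ hτQ)
  refine ⟨n, ?_⟩
  rw [IntermediateField.mem_fixingSubgroup_iff]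
  intro x hx
  rw [← hτK x hx]
  exact (IntermediateField.mem_fixingSubgroup_iff K τ).mp hτI x hx

/-- **Uniqueness of the Frobenius on an unramified level.**  If `A` is unramified in `K`
(the inertia group of `A` fixes `K`), `σ` acts as `b ↦ b ^ N` modulo `primeB A` on all algebraic
integers and `ψ` does so on the algebraic integers of `K`, then `ψ = σ` on `K`. -/
theorem frobenius_restrict_eq (K : IntermediateField ℚ Qb) [FiniteDimensional ℚ K]
    {A : ValuationSubring Qb} (hIK : A.inertiaSubgroupIn ℚ ≤ K.fixingSubgroup) {N : ℕ}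
    (hN : 0 < N) (σ ψ : Γ) (hσ : ∀ b : 𝓑, σ • b - b ^ N ∈ primeB A)
    (hψ : ∀ b : 𝓑, (b : Qb) ∈ K → ψ • b - b ^ N ∈ primeB A) : ∀ x ∈ K, ψ x = σ x := by
  have hσQ : ∀ b : 𝓑, σ • b ∈ primeB A ↔ b ∈ primeB A := smul_mem_primeB_iff_of_frob hN hσ
  have hσinv : ∀ c : 𝓑, σ⁻¹ • c ∈ primeB A ↔ c ∈ primeB A := by
    intro c
    have h1 := hσQ (σ⁻¹ • c)
    rw [smul_inv_smul] at h1
    exact h1.symm
  have hτ : ∀ b : 𝓑, (b : Qb) ∈ K → (σ⁻¹ * ψ) • b - b ∈ primeB A := by
    intro b hb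
    have h1 : ψ • b - σ • b ∈ primeB A := by
      have h2 := (primeB A).sub_mem (hψ b hb) (hσ b)
      have e : ψ • b - b ^ N - (σ • b - b ^ N) = ψ • b - σ • b := by ring
      rwa [e] at h2
    have h3 := (hσinv _).mpr h1
    rw [smul_sub, inv_smul_smul, ← mul_smul] at h3
    exact h3
  obtain ⟨τ, hτK, hτQ⟩ := exists_lift_inertia K (primeB A) (σ⁻¹ * ψ) hτ
  have hτI : τ ∈ K.fixingSubgroup :=
    hIK (Fermat.Agent.S55.H85.mem_inertiaSubgroupIn_of_primeB τ hτQ)
  intro x hx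
  have h1 : τ x = x := (IntermediateField.mem_fixingSubgroup_iff K τ).mp hτI x hx
  rw [hτK x hx] at h1
  have h2 : σ ((σ⁻¹ * ψ) x) = σ x := by rw [h1]
  have h3 : σ ((σ⁻¹ * ψ) x) = ψ x := by
    show σ (σ⁻¹ (ψ x)) = ψ x
    exact σ.apply_symm_apply (ψ x)
  rw [← h3, h2]

end Fermat.Agent.S55.H56
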