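/-
Program C (S55), package C9b, leaf (A3) `hlam` (helper56), part (H1): THE UNRAMIFIED INVARIANT
FORMULA FOR AN ARBITRARY 2-COCYCLE (C3 vocabulary).

For an unramified finite Galois extension `L / F` of embedded local fields with Frobenius `φ`,
`n = [L : F]`, and ANY 2-cocycle `c` of `Gal(L/F)` with values in `Lˣ`:

  `inv q L [c] = ord_F (∏_{i<n} c (φ^i, φ)) / n`   in `ℚ/ℤ`.

(`H37.cycClass_sum`: the class of `c` is the cyclic class of `∏_{i<n} c (φ^i, φ) ∈ Fˣ`;
`H66.c3_invUnr`: the invariant of a cyclic class.)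
-/
import Fermat.Agent.S55.H66.C3Main
import Fermat.Agent.S55.H28.UnitInv

set_option autoImplicit false

noncomputable section

namespace Fermat.Agent.S55.H56

open IntermediateField CategoryTheory groupCohomology

variable (q : ℕ) [Fact q.Prime]

section Local

variable (F : Type) [Field F] [Algebra ℚ_[q] F] [Algebra F (PadicAlgCl q)]
  [IsScalarTower ℚ_[q] F (PadicAlgCl q)] [FiniteDimensional ℚ_[q] F]
  (L : IntermediateField F (PadicAlgCl q)) [FiniteDimensional F L] [IsGalois F L]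

/-- A Frobenius of an unramified extension generates the Galois group and has order `[L:F]`. -/
theorem frob_generates (hL : H66.IsUnram q F L) (φ : L ≃ₐ[F] L) (hφ : H66.IsFrob q L φ) :
    (∀ g : L ≃ₐ[F] L, g ∈ Subgroup.zpowers φ) ∧ orderOf φ = Module.finrank F L := by
  obtain ⟨φ', -, huniq, hgen⟩ := H66.c3_frob q F L hL
  have hφφ' : φ = φ' := huniq φ hφ
  subst hφφ'
  refine ⟨hgen, ?_⟩
  rw [orderOf_eq_card_of_forall_mem_zpowers hgen, IsGalois.card_aut_eq_finrank]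

/-- **(H1)** The invariant of the class of an arbitrary 2-cocycle in an unramified extension:
the product `∏_{i<n} c (φ^i, φ)` is (the image of) an element `a` of `Fˣ`, and
`inv [c] = ord a / n`. -/
theorem inv_H2π_eq_of_unram (hL : H66.IsUnram q F L) (φ : L ≃ₐ[F] L) (hφ : H66.IsFrob q L φ)
    (c : cocycles₂ (Rep.ofAlgebraAutOnUnits F L)) :
    ∃ a : Fˣ, H66.baseUnit L a =
        H37.cycSum (Rep.ofAlgebraAutOnUnits F L) φ c (Module.finrank F L) ∧
      H66.inv q L ((H2π (Rep.ofAlgebraAutOnUnits F L)).hom c) =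
        (((H66.ord q (a : F) : ℚ) / (Module.finrank F L : ℚ) : ℚ) : H66.QZ) := by
  obtain ⟨hgen, hord⟩ := frob_generates q F L hL φ hφ
  have hn : 0 < orderOf φ := by
    rw [hord]
    exact Module.finrank_pos
  obtain ⟨hinv, hcls⟩ := H37.cycClass_sum (Rep.ofAlgebraAutOnUnits F L) φ hn hgen c
  rw [hord] at hinv hcls
  obtain ⟨a, ha⟩ := H24.exists_baseUnit_of_invariant L _ hinv
  refine ⟨a, ha, ?_⟩
  rw [hcls, ← ha]
  exact H66.c3_invUnr q F L hL φ hφ a

/-- **(H1)**, norm form: if `∏_{i<n} ‖c (φ^i, φ)‖ = unifNrm ^ m` then `inv [c] = m / n`. -/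
theorem inv_H2π_eq_of_unram_of_nrm (hL : H66.IsUnram q F L) (φ : L ≃ₐ[F] L)
    (hφ : H66.IsFrob q L φ) (c : cocycles₂ (Rep.ofAlgebraAutOnUnits F L)) (m : ℤ)
    (hm : ∏ i ∈ Finset.range (Module.finrank F L),
        H66.nrm q ((H24.toUnit L ((c : (L ≃ₐ[F] L) × (L ≃ₐ[F] L) → Rep.ofAlgebraAutOnUnits F L)
          (φ ^ i, φ)) : Lˣ) : L) = H66.unifNrm q F ^ m) :
    H66.inv q L ((H2π (Rep.ofAlgebraAutOnUnits F L)).hom c) =
      ((((m : ℤ) : ℚ) / (Module.finrank F L : ℚ) : ℚ) : H66.QZ) := by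
  obtain ⟨a, ha, hinv⟩ := inv_H2π_eq_of_unram q F L hL φ hφ c
  rw [hinv]
  have h1 : H66.nrm q (a : F) = H66.unifNrm q F ^ m := by
    rw [← hm]
    have h2 : H66.nrm q (a : F) = H66.nrm q ((H24.toUnit L (H66.baseUnit L a) : Lˣ) : L) := rfl
    rw [h2, ha, H37.cycSum, H24.toUnit_sum, Units.coe_prod, H24.nrm_prod]
  rw [H24.ord_eq_of_nrm_eq (H66.leafOrd q) a.ne_zero h1]

end Local

end Fermat.Agent.S55.H56
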