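/-
Program C (S55), package C9b, leaf (A3) `hlam` (helper56), part (H2): THE UNRAMIFIED INVARIANT
FORMULA FOR THE LOCAL INVARIANT OF A GLOBAL CLASS (C5 vocabulary, `H88.linvAt`).

`K / k` a normal extension, `τ' : K →+* PadicAlgCl q` (a place `w` of `K` above the place `v` of
`k`), with `K_w / k_v` unramified, `φ` its Frobenius, `n = [K_w : k_v]`, and
`φg = H88.locGalToGlobal q k τ' φ ∈ Gal(K/k)` (the Frobenius of `w` in `Gal(K/k)`).  For ANY
2-cocycle `z` of `Gal(K/k)` with values in `Kˣ`: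

  `linvAt q k τ' [z] = m / n`   whenever   `∏_{i<n} ‖τ' (z (φg^i, φg))‖ = unifNrm(k_v) ^ m`.
-/
import Fermat.Agent.S55.H88.LayerDefs
import Fermat.Agent.S55.H56.HlamLocal

set_option autoImplicit false

noncomputable section

namespace Fermat.Agent.S55.H56

open IntermediateField CategoryTheory groupCohomology Fermat.Agent.S55.H88

variable (q : ℕ) [Fact q.Prime]

variable (k : Type) {K : Type} [Field k] [Field K] [Algebra k K] [Normal k K]
  (τ' : K →+* PadicAlgCl q)

/-- The unit of `K` underlying an element of the Galois module `Kˣ`. -/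
def gUnit (x : Rep.ofAlgebraAutOnUnits k K) : Kˣ := Additive.toMul (Rep.toAdditive x)

theorem toUnit_globalToLocUnits (x : Rep.ofAlgebraAutOnUnits k K) :
    ((H24.toUnit (locExt q k τ') ((globalToLocUnits q k τ').hom x) : (locExt q k τ')ˣ) :
      locExt q k τ') = locExtEmb q k τ' ((gUnit k x : Kˣ) : K) := rfl

theorem nrm_toUnit_globalToLocUnits (x : Rep.ofAlgebraAutOnUnits k K) :
    H66.nrm q ((H24.toUnit (locExt q k τ') ((globalToLocUnits q k τ').hom x) :
      (locExt q k τ')ˣ) : locExt q k τ') = ‖τ' ((gUnit k x : Kˣ) : K)‖ := by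
  rw [toUnit_globalToLocUnits]
  rfl

/-- **(H2)** The local invariant at an unramified place of the class of an arbitrary global
2-cocycle. -/
theorem linvAt_H2π_eq_of_unram [FiniteDimensional ℚ_[q] (locBase q k τ')]
    [FiniteDimensional (locBase q k τ') (locExt q k τ')] [IsGalois (locBase q k τ') (locExt q k τ')]
    (hL : H66.IsUnram q (locBase q k τ') (locExt q k τ'))
    (φ : locExt q k τ' ≃ₐ[locBase q k τ'] locExt q k τ') (hφ : H66.IsFrob q (locExt q k τ') φ)
    (z : cocycles₂ (Rep.ofAlgebraAutOnUnits k K)) (m : ℤ)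
    (hm : ∏ i ∈ Finset.range (Module.finrank (locBase q k τ') (locExt q k τ')),
        ‖τ' ((gUnit k ((z : (K ≃ₐ[k] K) × (K ≃ₐ[k] K) → Rep.ofAlgebraAutOnUnits k K)
          ((locGalToGlobal q k τ' φ) ^ i, locGalToGlobal q k τ' φ)) : Kˣ) : K)‖ =
          H66.unifNrm q (locBase q k τ') ^ m) :
    linvAt q k τ' ((H2π (Rep.ofAlgebraAutOnUnits k K)).hom z) =
      ((((m : ℤ) : ℚ) / (Module.finrank (locBase q k τ') (locExt q k τ') : ℚ) : ℚ) : H66.QZ) := by
  have h1 : locH2At q k τ' ((H2π (Rep.ofAlgebraAutOnUnits k K)).hom z) =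
      (H2π (Rep.ofAlgebraAutOnUnits (locBase q k τ') (locExt q k τ'))).hom
        (mapCocycles₂ (locGalToGlobal q k τ') (globalToLocUnits q k τ') z) :=
    H2π_comp_map_apply (locGalToGlobal q k τ') (globalToLocUnits q k τ') z
  have h2 : linvAt q k τ' ((H2π (Rep.ofAlgebraAutOnUnits k K)).hom z) =
      H66.inv q (locExt q k τ') (locH2At q k τ' ((H2π (Rep.ofAlgebraAutOnUnits k K)).hom z)) := rfl
  rw [h2, h1]
  refine inv_H2π_eq_of_unram_of_nrm q (locBase q k τ') (locExt q k τ') hL φ hφ _ m ?_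
  rw [← hm]
  refine Finset.prod_congr rfl fun i _ => ?_
  have key : ((mapCocycles₂ (locGalToGlobal q k τ') (globalToLocUnits q k τ') z :
      cocycles₂ (Rep.ofAlgebraAutOnUnits (locBase q k τ') (locExt q k τ'))) :
        (locExt q k τ' ≃ₐ[locBase q k τ'] locExt q k τ') ×
          (locExt q k τ' ≃ₐ[locBase q k τ'] locExt q k τ') →
            Rep.ofAlgebraAutOnUnits (locBase q k τ') (locExt q k τ')) (φ ^ i, φ) =
      (globalToLocUnits q k τ').hom
        ((z : (K ≃ₐ[k] K) × (K ≃ₐ[k] K) → Rep.ofAlgebraAutOnUnits k K)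
          ((locGalToGlobal q k τ' φ) ^ i, locGalToGlobal q k τ' φ)) := by
    have h3 := congrFun (coe_mapCocycles₂ (locGalToGlobal q k τ') (globalToLocUnits q k τ') z)
      (φ ^ i, φ)
    rw [h3, ← map_pow]
    rfl
  exact (congrArg (fun y => H66.nrm q ((H24.toUnit (locExt q k τ') y : (locExt q k τ')ˣ) :
    locExt q k τ')) key).trans (nrm_toUnit_globalToLocUnits q k τ' _)

end Fermat.Agent.S55.H56
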