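/-
Program C (S55), package C9b, leaf (hlam), sub-leaf (HL-a) DICT-RES — VERBATIM COPY (helper56) of
helper93's `S55/H93/DictRes.lean` under the namespace `Fermat.Agent.S55.H56` with the auxiliary
names prefixed `dr`: helper93's file declares `H93.resHom` / `H93.resHom_surjective`, which are
also declared (with other content) in `S55/H93/GalTransport.lean`, a file in the import closure
of `H66.C3Main`; so the original cannot be imported next to C3.  Mathematics and proof: helper93.

  `resCard_locField_eq' : H66.resCard q (H88.locField q τ) = Nat.card (𝓞 k ⧸ H83.primeOfEmb q τ)`.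
-/
import Mathlib
import Fermat.Agent.S55.H28.Unram
import Fermat.Agent.S55.H83.DictBasic
import Fermat.Agent.S55.H88.SemiLocalSpec
import Fermat.Agent.S55.H10.SemiLocalDense

set_option autoImplicit false

open NumberField IsDedekindDomain

noncomputable section

namespace Fermat.Agent.S55.H56

variable (q : ℕ) [Fact q.Prime] {k : Type} [Field k] [NumberField k] (τ : k →+* PadicAlgCl q)

/-- `τ(k)` is dense in the completion `locField q τ`. -/
theorem drDense {y : PadicAlgCl q} (hy : y ∈ H88.locField q τ)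
    {ε : ℝ} (hε : 0 < ε) : ∃ x : k, ‖y - τ x‖ < ε := by
  obtain ⟨f, hf, -⟩ := H88.semiLocalSplitStatement_holds q k τ y hy
  obtain ⟨x, hx⟩ := H10.semiLocalDense q k f ε hε
  exact ⟨x, hf ▸ hx τ⟩

/-- An element of `k` in the unit ball of `τ` is congruent to an integer modulo the open unit
ball. -/
theorem drInteger (x : k) (hx : ‖τ x‖ ≤ 1) :
    ∃ a : 𝓞 k, ‖τ x - τ (algebraMap (𝓞 k) k a)‖ < 1 := by
  set P := H83.heightOneOfEmb q τ with hP
  have hv : P.valuation k x ≤ 1 := (H83.norm_emb_le_one_iff q τ x).mp hx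
  obtain ⟨n, d, hnd⟩ := P.exists_primeCompl_mul_eq_of_integer x hv
  have hmax : P.asIdeal.IsMaximal := P.isMaximal
  obtain ⟨t, i, hi, hti⟩ := hmax.exists_inv d.2
  refine ⟨t * n, ?_⟩
  have hi' : ‖τ (algebraMap (𝓞 k) k i)‖ < 1 := hi
  have e : τ x - τ (algebraMap (𝓞 k) k (t * n)) = τ x * τ (algebraMap (𝓞 k) k i) := by
    have h1 : algebraMap (𝓞 k) k (t * n) = algebraMap (𝓞 k) k t * (x * algebraMap (𝓞 k) k d) := by
      rw [map_mul, hnd]
    have h2 : algebraMap (𝓞 k) k i = 1 - algebraMap (𝓞 k) k t * algebraMap (𝓞 k) k d := by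
      rw [← map_mul, ← map_one (algebraMap (𝓞 k) k), ← map_sub, ← hti]
      congr 1
      ring
    rw [h1, h2, ← map_sub, ← map_mul]
    congr 1
    ring
  rw [e, norm_mul]
  calc ‖τ x‖ * ‖τ (algebraMap (𝓞 k) k i)‖ ≤ 1 * ‖τ (algebraMap (𝓞 k) k i)‖ :=
        mul_le_mul_of_nonneg_right hx (norm_nonneg _)
    _ < 1 := by rw [one_mul]; exact hi'

/-- The integers of `k` inside the valuation ring of the completion. -/
def drIntHom : 𝓞 k →+* H66.intRing q (H88.locField q τ) where
  toFun a := ⟨H88.locEmb q τ (algebraMap (𝓞 k) k a),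
    (H28.mem_intRing q (H88.locField q τ)).2 (H83.norm_emb_le_one q τ a)⟩
  map_one' := Subtype.ext (by simp)
  map_mul' a b := Subtype.ext (by simp)
  map_zero' := Subtype.ext (by simp)
  map_add' a b := Subtype.ext (by simp)

theorem drCoeIntHom (a : 𝓞 k) :
    algebraMap (H88.locField q τ) (PadicAlgCl q) ((drIntHom q τ a : H66.intRing q (H88.locField q τ)) :
      H88.locField q τ) = τ (algebraMap (𝓞 k) k a) := rfl

/-- Units of the valuation ring of an embedded field have norm one. -/
theorem drIsUnitIntRing (F : Type) [Field F] [Algebra F (PadicAlgCl q)]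
    (x : H66.intRing q F) : IsUnit x ↔ ‖algebraMap F (PadicAlgCl q) (x : F)‖ = 1 := by
  constructor
  · rintro ⟨u, rfl⟩
    have h1 : ‖algebraMap F (PadicAlgCl q) ((u : H66.intRing q F) : F)‖ ≤ 1 :=
      (H28.mem_intRing q F).1 (u : H66.intRing q F).2
    have h2 : ‖algebraMap F (PadicAlgCl q) (((u⁻¹ : (H66.intRing q F)ˣ) : H66.intRing q F) : F)‖
        ≤ 1 := (H28.mem_intRing q F).1 ((u⁻¹ : (H66.intRing q F)ˣ) : H66.intRing q F).2
    have h3 : ((u : H66.intRing q F) : F) * (((u⁻¹ : (H66.intRing q F)ˣ) : H66.intRing q F) : F)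
        = 1 := congrArg (fun z : H66.intRing q F => (z : F)) u.mul_inv
    have h4 := congrArg (fun z : F => ‖algebraMap F (PadicAlgCl q) z‖) h3
    simp only [map_mul, norm_mul, map_one, norm_one] at h4
    nlinarith [norm_nonneg (algebraMap F (PadicAlgCl q) ((u : H66.intRing q F) : F)),
      norm_nonneg (algebraMap F (PadicAlgCl q)
        (((u⁻¹ : (H66.intRing q F)ˣ) : H66.intRing q F) : F))]
  · exact H28.isUnit_intRing_of_norm q F x

theorem drResidueEqZero (F : Type) [Field F] [Algebra F (PadicAlgCl q)]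
    (x : H66.intRing q F) :
    IsLocalRing.residue (H66.intRing q F) x = 0 ↔ ‖algebraMap F (PadicAlgCl q) (x : F)‖ < 1 := by
  have hle : ‖algebraMap F (PadicAlgCl q) (x : F)‖ ≤ 1 := (H28.mem_intRing q F).1 x.2
  rw [IsLocalRing.residue_eq_zero_iff, IsLocalRing.mem_maximalIdeal, mem_nonunits_iff,
    drIsUnitIntRing]
  exact ⟨fun h => lt_of_le_of_ne hle h, fun h => ne_of_lt h⟩

/-- Reduction of the integers of `k` into the residue field of the completion. -/
def drResHom : 𝓞 k →+* IsLocalRing.ResidueField (H66.intRing q (H88.locField q τ)) :=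
  (IsLocalRing.residue _).comp (drIntHom q τ)

theorem drKerResHom : RingHom.ker (drResHom q τ) = H83.primeOfEmb q τ := by
  ext a
  rw [RingHom.mem_ker, drResHom, RingHom.comp_apply, drResidueEqZero, drCoeIntHom,
    H83.mem_primeOfEmb]

theorem drResHomSurj : Function.Surjective (drResHom q τ) := by
  intro r
  obtain ⟨y, rfl⟩ := IsLocalRing.residue_surjective r
  have hy1 : ‖((y : H88.locField q τ) : PadicAlgCl q)‖ ≤ 1 :=
    (H28.mem_intRing q (H88.locField q τ)).1 y.2
  obtain ⟨x, hx⟩ := drDense q τ (y : H88.locField q τ).2 one_pos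
  have hx1 : ‖τ x‖ ≤ 1 := by
    have e : τ x = ((y : H88.locField q τ) : PadicAlgCl q) +
        -(((y : H88.locField q τ) : PadicAlgCl q) - τ x) := by ring
    rw [e]
    refine le_trans (IsUltrametricDist.norm_add_le_max _ _) (max_le hy1 ?_)
    rw [norm_neg]
    exact hx.le
  obtain ⟨a, ha⟩ := drInteger q τ x hx1
  refine ⟨a, ?_⟩
  rw [drResHom, RingHom.comp_apply, ← sub_eq_zero, ← map_sub, drResidueEqZero]
  have e : algebraMap (H88.locField q τ) (PadicAlgCl q)
      (((drIntHom q τ a - y : H66.intRing q (H88.locField q τ)) : H88.locField q τ)) =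
      -((((y : H88.locField q τ) : PadicAlgCl q) - τ x) + (τ x - τ (algebraMap (𝓞 k) k a))) := by
    show τ (algebraMap (𝓞 k) k a) - ((y : H88.locField q τ) : PadicAlgCl q) = _
    ring
  rw [e, norm_neg]
  exact lt_of_le_of_lt (IsUltrametricDist.norm_add_le_max _ _) (max_lt hx ha)

/-- **(HL-a) DICT-RES**: the residue field of the completion of `k` at `τ` has the cardinality
of the residue field of the prime of `τ`. -/
theorem resCard_locField_eq' :
    H66.resCard q (H88.locField q τ) = Nat.card (𝓞 k ⧸ H83.primeOfEmb q τ) := by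
  have e := RingHom.quotientKerEquivOfSurjective (drResHomSurj q τ)
  have e' := Ideal.quotEquivOfEq (drKerResHom q τ)
  exact (Nat.card_congr (e'.symm.trans e).toEquiv).symm

end Fermat.Agent.S55.H56
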