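/-
Program C (S55), package C9b, leaf (A3) `hlam` (helper56), part (HL-d): FROBENIUS COMPARISON.

`F ⊆ ℚ̄` a number field, `K / F` a finite normal layer, `j : ℚ̄ →+* PadicAlgCl q` an embedding
with unit ball `A = H11.ballSub q j`, `τ' = j|_K`.  If `A` is unramified in `K` and `σ ∈ Gal(ℚ̄/F)`
is an `F`-Frobenius at `A` (`σ b ≡ b ^ N` modulo the prime of `A`, all algebraic integers `b`),
`N` the cardinality of the residue field of the completion `F_v`, then the restriction of `σ` to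
`K` is the image in `Gal(K/F)` of the local Frobenius of `K_w / F_v`:

  `H74.galRes F K ⟨σ, _⟩ = H88.locGalToGlobal q F τ' φ`.
-/
import Mathlib
import Fermat.Agent.S55.H56.Frobenius
import Fermat.Agent.S55.H74.GalLayer
import Fermat.Agent.S55.H11.DictVS
import Fermat.Agent.S55.H88.LayerDefs

set_option autoImplicit false

noncomputable section

namespace Fermat.Agent.S55.H56

open NumberField
open scoped Pointwise
open Fermat.Agent.S54.H94 Fermat.Agent.S14.H4 Fermat.Agent.S55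

local notation "Qb" => AlgebraicClosure ℚ
local notation "Γ" => (AlgebraicClosure ℚ ≃ₐ[ℚ] AlgebraicClosure ℚ)
local notation "𝓑" => integralClosure ℤ (AlgebraicClosure ℚ)

variable (q : ℕ) [Fact q.Prime]

/-- **(FROB-CMP)** The global `F`-Frobenius at the unit ball of `j` restricts on an unramified
layer `K / F` to the image of the local Frobenius. -/
theorem galRes_frobenius_eq (F : IntermediateField ℚ Qb) (K : IntermediateField ↥F Qb)
    [Normal ↥F ↥K] [FiniteDimensional ℚ ↥(K.restrictScalars ℚ)] (j : Qb →+* PadicAlgCl q)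
    (τ' : ↥K →+* PadicAlgCl q) (hτ' : ∀ x : ↥K, τ' x = j (x : Qb))
    (hIK : (H11.ballSub q j).inertiaSubgroupIn ℚ ≤ (K.restrictScalars ℚ).fixingSubgroup)
    (σ : Γ) (hσF : σ ∈ F.fixingSubgroup) {N : ℕ} (hN : 0 < N)
    (hσ : ∀ b : 𝓑, σ • b - b ^ N ∈ primeB (H11.ballSub q j))
    (φ : H88.locExt q ↥F τ' ≃ₐ[H88.locBase q ↥F τ'] H88.locExt q ↥F τ')
    (hφ : H66.IsFrob q (H88.locExt q ↥F τ') φ)
    (hR : H66.resCard q (H88.locBase q ↥F τ') = N) :
    H74.galRes F K ⟨σ, hσF⟩ = H88.locGalToGlobal q ↥F τ' φ := by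
  -- a lift of the image of `φ` to `Gal(ℚ̄/F)`
  obtain ⟨γ, hγ⟩ := H74.galRes_surjective F K (H88.locGalToGlobal q ↥F τ' φ)
  have hγx : ∀ x : ↥K, (γ : Γ) (x : Qb) = ((H88.locGalToGlobal q ↥F τ' φ x : ↥K) : Qb) := by
    intro x
    rw [← hγ]
    exact (H74.galRes_apply F K γ x).symm
  have hψ : ∀ b : 𝓑, (b : Qb) ∈ K.restrictScalars ℚ →
      (γ : Γ) • b - b ^ N ∈ primeB (H11.ballSub q j) := by
    intro b hb
    rw [mem_primeB_iff, H11.mem_nonunits_ballSub]
    let x : ↥K := ⟨(b : Qb), hb⟩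
    have hX : H66.nrm q (H88.locExtEmb q ↥F τ' x) ≤ 1 := by
      show ‖τ' x‖ ≤ 1
      rw [hτ' x]
      exact H88.norm_le_one_of_isIntegral q (b.2.map (j : Qb →+* PadicAlgCl q).toIntAlgHom)
    have h1 := hφ (H88.locExtEmb q ↥F τ' x) hX
    rw [hR, H88.locGalToGlobal_spec q ↥F τ' φ x] at h1
    have e : j ((((γ : Γ) • b - b ^ N : 𝓑) : Qb)) =
        ((H88.locExtEmb q ↥F τ' (H88.locGalToGlobal q ↥F τ' φ x) - H88.locExtEmb q ↥F τ' x ^ N :
          H88.locExt q ↥F τ') : PadicAlgCl q) := by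
      have e1 : ((((γ : Γ) • b - b ^ N : 𝓑)) : Qb) = (γ : Γ) (b : Qb) - (b : Qb) ^ N := rfl
      rw [e1, map_sub, map_pow]
      have e2 : (γ : Γ) (b : Qb) = ((H88.locGalToGlobal q ↥F τ' φ x : ↥K) : Qb) := hγx x
      rw [e2, ← hτ' (H88.locGalToGlobal q ↥F τ' φ x)]
      have e3 : j (b : Qb) = τ' x := (hτ' x).symm
      rw [e3]
      rfl
    rw [e]
    exact h1
  have key := frobenius_restrict_eq (K.restrictScalars ℚ) hIK hN σ (γ : Γ) hσ hψ
  apply AlgEquiv.ext
  intro x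
  apply Subtype.ext
  rw [H74.galRes_apply F K ⟨σ, hσF⟩ x]
  have h2 := key (x : Qb) x.2
  rw [hγx x] at h2
  exact h2.symm

end Fermat.Agent.S55.H56
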