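/-
Program C (S55), package C9b, leaf (A3) `hlam` (helper56), part (C) of the final assembly:
THE LOCAL FROBENIUS OF A LAYER AND THE GLOBAL FROBENIUS.

`F ⊆ ℚ̄` a number field, `L` a finite normal layer of `F` unramified outside `S`, `q ∉ S`,
`j : ℚ̄ →+* PadicAlgCl q` with unit ball `A`, `τ' = j|_{L.K}`.  Then `K_w / F_v` is unramified, has
a Frobenius `φ` generating its Galois group, and EVERY `σ ∈ Gal(ℚ̄/F)` with
`σ b ≡ b ^ N  (mod 𝔓_A)` for all algebraic integers `b`, `N = #(𝓞 F ⧸ (A ∩ 𝓞 F))`, restricts on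
`L.K` to the image of `φ` in `Gal(L.K/F)`.
-/
import Mathlib
import Fermat.Agent.S55.H56.FrobCmp
import Fermat.Agent.S55.H74.GalLayerH
import Fermat.Agent.S55.H56.DictRes
import Fermat.Agent.S55.H28.LinvFin
import Fermat.Agent.S55.H20.UnrBridge
import Fermat.Agent.S55.H41.SumLocalDegree
import Fermat.Agent.S55.H66.C3Main

set_option autoImplicit false

noncomputable section

namespace Fermat.Agent.S55.H56

open NumberField
open scoped Pointwise
open Fermat.Agent.S54.H94 Fermat.Agent.S14.H4 Fermat.Agent.S55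

local notation "Qb" => AlgebraicClosure ℚ
local notation "Γ" => (AlgebraicClosure ℚ ≃ₐ[ℚ] AlgebraicClosure ℚ)
local notation "𝓑" => integralClosure ℤ (AlgebraicClosure ℚ)

attribute [local instance] Fermat.Agent.S55.H88.factOfPrimes

variable {S : Finset Nat.Primes}

/-- `K_w / F_v` is unramified (C3 sense) for a layer unramified outside `S` and `q ∉ S`. -/
theorem isUnram_locExt_layer (F : IntermediateField ℚ Qb) (q : Nat.Primes) (hq : q ∉ S)
    (L : H74.QSLayer S F) (τ' : ↥L.K →+* PadicAlgCl (q : ℕ)) :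
    H66.IsUnram (q : ℕ) (H88.locBase (q : ℕ) ↥F τ') (H88.locExt (q : ℕ) ↥F τ') := by
  refine H28.isUnram_locExt (q : ℕ) ↥F τ' ?_
  intro τ x hx
  have hq' : ∀ q' : Nat.Primes, (q' : ℕ) = (q : ℕ) → q' ∉ S := by
    intro q' h
    have : q' = q := Subtype.ext h
    rw [this]
    exact hq
  obtain ⟨y, hy⟩ := H20.norm_mem_base_of_isUnramifiedOutside S (L.K.restrictScalars ℚ) L.unr
    (q : ℕ) hq' τ x hx
  exact ⟨algebraMap ℚ_[(q : ℕ)] (PadicAlgCl (q : ℕ)) y, IntermediateField.algebraMap_mem _ y, hy⟩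

/-- **(C), general embedding.** -/
theorem exists_locFrob_galRes (F : IntermediateField ℚ Qb) [NumberField ↥F] (q : Nat.Primes)
    (hq : q ∉ S) (L : H74.QSLayer S F) (j : Qb →+* PadicAlgCl (q : ℕ))
    (τ' : ↥L.K →+* PadicAlgCl (q : ℕ)) (hτ' : ∀ x : ↥L.K, τ' x = j (x : Qb)) :
    ∃ φ : H88.locExt (q : ℕ) ↥F τ' ≃ₐ[H88.locBase (q : ℕ) ↥F τ'] H88.locExt (q : ℕ) ↥F τ',
      H66.IsFrob (q : ℕ) (H88.locExt (q : ℕ) ↥F τ') φ ∧ (∀ ψ, ψ ∈ Subgroup.zpowers φ) ∧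
      ∀ (σ : Γ) (hσF : σ ∈ F.fixingSubgroup),
        (∀ b : 𝓑, σ • b - b ^ Nat.card (𝓞 ↥F ⧸ centerInt F (H11.ballSub (q : ℕ) j)) ∈
          primeB (H11.ballSub (q : ℕ) j)) →
        H74.galRes F L.K ⟨σ, hσF⟩ = H88.locGalToGlobal (q : ℕ) ↥F τ' φ := by
  haveI : FiniteDimensional ℚ ↥(L.K.restrictScalars ℚ) := L.unr.1
  haveI : FiniteDimensional ℚ ↥L.K := L.finiteDimensional_rat
  haveI : NumberField ↥L.K := ⟨⟩
  haveI : FiniteDimensional ℚ_[(q : ℕ)] (H88.locBase (q : ℕ) ↥F τ') :=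
    H41.finiteDimensional_locField (q : ℕ) ↥F (τ'.comp (algebraMap ↥F ↥L.K))
  haveI := H28.finiteDimensional_locExt (q : ℕ) ↥F τ'
  haveI : IsGalois (H88.locBase (q : ℕ) ↥F τ') (H88.locExt (q : ℕ) ↥F τ') := ⟨⟩
  have hunr := isUnram_locExt_layer F q hq L τ'
  obtain ⟨φ, hφ, -, hgen⟩ :=
    H66.c3_frob (q : ℕ) (H88.locBase (q : ℕ) ↥F τ') (H88.locExt (q : ℕ) ↥F τ') hunr
  refine ⟨φ, hφ, hgen, fun σ hσF hσ => ?_⟩
  have hIK : (H11.ballSub (q : ℕ) j).inertiaSubgroupIn ℚ ≤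
      (L.K.restrictScalars ℚ).fixingSubgroup :=
    L.unr.2 q hq (H11.ballSub (q : ℕ) j) (H11.ballSub_liesOver j)
  have hN : 0 < Nat.card (𝓞 ↥F ⧸ centerInt F (H11.ballSub (q : ℕ) j)) := by
    obtain ⟨-, -, -, h, -⟩ := exists_frobenius F q.2 (H11.ballSub_liesOver j)
    exact h
  have hR : H66.resCard (q : ℕ) (H88.locBase (q : ℕ) ↥F τ') =
      Nat.card (𝓞 ↥F ⧸ centerInt F (H11.ballSub (q : ℕ) j)) := by
    rw [H11.centerInt_ballSub]
    have e : τ'.comp (algebraMap ↥F ↥L.K) = j.comp (algebraMap ↥F Qb) := by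
      ext x
      exact hτ' (algebraMap ↥F ↥L.K x)
    show H66.resCard (q : ℕ) (H88.locField (q : ℕ) (τ'.comp (algebraMap ↥F ↥L.K))) = _
    rw [e]
    exact resCard_locField_eq' (q : ℕ) _
  exact galRes_frobenius_eq (q : ℕ) F L.K j τ' hτ' hIK σ hσF hN hσ φ hφ hR

/-- **(C)** at the representative `H11.placeExt F v` of a finite place `v ∉ S` of `F`. -/
theorem exists_locFrob_placeExt (F : IntermediateField ℚ Qb) [NumberField ↥F]
    (v : H88.FinPlace ↥F) (hv : v.1 ∉ S) (L : H74.QSLayer S F) :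
    ∃ φ : H88.locExt (v.1 : ℕ) ↥F ((H11.placeExt F v).comp (algebraMap ↥L.K Qb))
        ≃ₐ[H88.locBase (v.1 : ℕ) ↥F ((H11.placeExt F v).comp (algebraMap ↥L.K Qb))]
        H88.locExt (v.1 : ℕ) ↥F ((H11.placeExt F v).comp (algebraMap ↥L.K Qb)),
      H66.IsFrob (v.1 : ℕ)
        (H88.locExt (v.1 : ℕ) ↥F ((H11.placeExt F v).comp (algebraMap ↥L.K Qb))) φ ∧
      (∀ ψ, ψ ∈ Subgroup.zpowers φ) ∧
      ∀ (σ : Γ) (hσF : σ ∈ F.fixingSubgroup),
        (∀ b : 𝓑, σ • b - b ^ Nat.card (𝓞 ↥F ⧸ centerInt F (H11.ballV F v)) ∈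
          primeB (H11.ballV F v)) →
        H74.galRes F L.K ⟨σ, hσF⟩ =
          H88.locGalToGlobal (v.1 : ℕ) ↥F ((H11.placeExt F v).comp (algebraMap ↥L.K Qb)) φ :=
  exists_locFrob_galRes F v.1 hv L (H11.placeExt F v)
    ((H11.placeExt F v).comp (algebraMap ↥L.K Qb)) (fun _ => rfl)

end Fermat.Agent.S55.H56
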