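/-
Program C (S55), package C9b, leaf (A3) `hlam` (helper56): part (C) of the final assembly in the
EXACT shape asked by helper11 (`H11/LamV.lean` vocabulary): for a finite place `v` of `F` outside
`S` and a layer `L`, the completion `K_w / F_v` at `τ = (H11.placeExt F v)|_{L.K}` has a Frobenius
`φ`, it generates the local Galois group, and its image in `Gal(L.K/F)` is the restriction of the
chosen global Frobenius `H11.frobSG F v`.
-/
import Mathlib
import Fermat.Agent.S55.H56.FrobC
import Fermat.Agent.S55.H11.LamV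

set_option autoImplicit false

noncomputable section

namespace Fermat.Agent.S55.H56

open NumberField
open scoped Pointwise
open Fermat.Agent.S55

local notation "Qb" => AlgebraicClosure ℚ

attribute [local instance] Fermat.Agent.S55.H88.factOfPrimes

variable {S : Finset Nat.Primes}

/-- **(C)**, consumer form: the local Frobenius at `placeExt F v` maps to the restriction of
`H11.frobSG F v`. -/
theorem exists_locFrob_frobSG (F : IntermediateField ℚ Qb) [NumberField ↥F] (v : H11.PlOut S F)
    (L : H74.QSLayer S F) :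
    ∃ φ : H88.locExt (v.1.1 : ℕ) ↥F ((H11.placeExt F v.1).comp (algebraMap ↥L.K Qb))
        ≃ₐ[H88.locBase (v.1.1 : ℕ) ↥F ((H11.placeExt F v.1).comp (algebraMap ↥L.K Qb))]
        H88.locExt (v.1.1 : ℕ) ↥F ((H11.placeExt F v.1).comp (algebraMap ↥L.K Qb)),
      H66.IsFrob (v.1.1 : ℕ)
        (H88.locExt (v.1.1 : ℕ) ↥F ((H11.placeExt F v.1).comp (algebraMap ↥L.K Qb))) φ ∧
      (∀ ψ, ψ ∈ Subgroup.zpowers φ) ∧
      H88.locGalToGlobal (v.1.1 : ℕ) ↥F ((H11.placeExt F v.1).comp (algebraMap ↥L.K Qb)) φ =
        H74.galRes F L.K (H11.frobSG F v) := by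
  have hv : v.1.1 ∉ S := fun h => v.2 (H88.mem_sPlaces_iff.2 h)
  obtain ⟨φ, hφ, hgen, h⟩ := exists_locFrob_placeExt F v.1 hv L
  refine ⟨φ, hφ, hgen, ?_⟩
  exact (h (H11.frobX F (H11.repS F v)) (H11.frobX_mem F (H11.repS F v))
    (fun b => H11.frobX_congr F (H11.repS F v) b)).symm

end Fermat.Agent.S55.H56
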