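/-
Program C (S55), package C9b, leaf (A3) (LAM): **`H70.LamStatement p S pp` IS A THEOREM**.

Final plug (helper56) of helper11's assembly `H11.lamStatement_of_frobCmp` (`H11/HlamFinal.lean`)
with the Frobenius comparison `H56.exists_locFrob_frobSG` (`H56/FrobCLam.lean`):

* `frobCmp S F : H11.FrobCmp S F`;
* `hlamLeaf pp F hF : H11.HlamLeaf S pp F hF` (the unramified invariant formula);
* `lamStatement hpS pp hpp : H70.LamStatement p S pp`.
-/
import Mathlib
import Fermat.Agent.S55.H56.FrobCLam
import Fermat.Agent.S55.H11.HlamFinal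

set_option autoImplicit false

noncomputable section

namespace Fermat.Agent.S55.H56

open NumberField
open scoped Pointwise
open Fermat.Agent.S55

local notation "Qb" => AlgebraicClosure ℚ

attribute [local instance] Fermat.Agent.S55.H88.factOfPrimes

variable {S : Finset Nat.Primes}

/-- **(HL-d) FROB-CMP** in helper11's shape. -/
theorem frobCmp (S : Finset Nat.Primes) (F : IntermediateField ℚ Qb) [NumberField ↥F] :
    H11.FrobCmp S F := by
  intro v L
  obtain ⟨φ, hφ, -, h⟩ := exists_locFrob_frobSG F v L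
  exact ⟨φ, hφ, h⟩

/-- **(HLAM)** The unramified invariant formula for `H11.lamV`. -/
theorem hlamLeaf (pp : H66.QZ →+ H66.QZ) (F : IntermediateField ℚ Qb) [NumberField ↥F]
    (hF : F.IsUnramifiedOutside S) : H11.HlamLeaf S pp F hF :=
  H11.hlamLeaf_of_frobCmp F hF pp (frobCmp S F)

/-- **(A3) = (LAM)**: the invariants `lam v` of `H²_lc(G_S(F), P_S)` with (Pa), (Pb), (Pb-fin) and
the unramified formula, for every additive `pp : ℚ/ℤ → ℚ/ℤ` which is the identity on the
`p`-primary part. -/
theorem lamStatement {p : ℕ} [Fact p.Prime] (hpS : ExtCitation.pPrime p ∈ S)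
    (pp : H66.QZ →+ H66.QZ) (hpp : ∀ t : H66.QZ, H70.IsPPrimary p t → pp t = t) :
    H70.LamStatement p S pp :=
  H11.lamStatement_of_frobCmp hpS pp hpp fun F _ _ => frobCmp S F

end Fermat.Agent.S55.H56
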