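/-
Program C (S55), package C9b, leaf (A3) (LAM), consumer form (helper56):

* `lamStatement_pPart hpS : H70.LamStatement p S (H63.pPart p)` — the exact input `hLam` of
  `H70.arithStatement_of_three` / `H70.finInvPStatement_of_c8`;
* `arithStatement_of_two` : the arithmetic input of C9b from the TWO remaining inputs
  `H29.CycloRecStatement p` and `H70.H3QSStatement p S`.
-/
import Mathlib
import Fermat.Agent.S55.H56.LamFinal
import Fermat.Agent.S55.H70.GSC8

set_option autoImplicit false

noncomputable section

namespace Fermat.Agent.S55.H56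

open Fermat.Agent.S55

variable {p : ℕ} [Fact p.Prime] {S : Finset Nat.Primes}

/-- **(LAM)** for the `p`-primary projector `H63.pPart p` of `ℚ/ℤ`. -/
theorem lamStatement_pPart (hpS : ExtCitation.pPrime p ∈ S) :
    H70.LamStatement p S (H63.pPart p) :=
  lamStatement hpS (H63.pPart p)
    (fun _ ht => H63.pPartOf_of_isPPrimary Fact.out H63.qz_torsion ht)

/-- The arithmetic input of C9b from the two remaining inputs (B2-core) and (B4). -/
theorem arithStatement_of_two (hp2 : p ≠ 2) (hpS : ExtCitation.pPrime p ∈ S)
    (hCR : H29.CycloRecStatement p) (hH3 : H70.H3QSStatement p S) :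
    H70.ArithStatement p S H66.QZ :=
  H70.arithStatement_of_three hp2 hpS hCR hH3 (lamStatement_pPart hpS)

end Fermat.Agent.S55.H56
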