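/-
Program C (S55), package C9b, leaf (A3) `hlam` (helper56): the re-indexing lemmas for the
G_S-side of the unramified invariant formula.

`H11.lamF_gsPi2` computes the invariant with a length `n` such that `frob ^ n` lies in a NORMAL
level `N`; the local formula uses the period `n₀ = [K_w : F_v]` of the restriction of `frob` to
the layer `L.K ⊆ N`.  With `n = n₀ * d`, `d` the index of the level subgroup:

* `pow_mul_index_mem` : `g ^ (n₀ * H.index) ∈ H` for a normal subgroup `H`;
* `sum_range_mul_of_periodic` : a sum over `n₀ * d` terms of an `n₀`-periodic sequence;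
* `periodic_avg` : the two averages agree in `ℚ`.
-/
import Mathlib

set_option autoImplicit false

namespace Fermat.Agent.S55.H56

/-- `g ^ (n * [G : H]) ∈ H` for a normal subgroup `H`. -/
theorem pow_mul_index_mem {G : Type*} [Group G] (H : Subgroup G) [H.Normal] (g : G) (n : ℕ) :
    g ^ (n * H.index) ∈ H := by
  rw [pow_mul]
  exact H.pow_index_mem (g ^ n)

/-- A sum over `n * d` terms of an `n`-periodic sequence. -/
theorem sum_range_mul_of_periodic {M : Type*} [AddCommMonoid M] (o : ℕ → M) (n : ℕ)
    (h : ∀ k, o (k + n) = o k) (d : ℕ) :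
    ∑ k ∈ Finset.range (n * d), o k = d • ∑ k ∈ Finset.range n, o k := by
  have hper : ∀ (j k : ℕ), o (n * j + k) = o k := by
    intro j
    induction j with
    | zero => intro k; simp
    | succ j ih =>
      intro k
      have e : n * (j + 1) + k = (n * j + k) + n := by ring
      rw [e, h, ih]
  induction d with
  | zero => simp
  | succ d ih =>
    rw [Nat.mul_succ, Finset.sum_range_add, ih, succ_nsmul]
    congr 1
    exact Finset.sum_congr rfl fun k _ => hper d k

/-- The averages over `n * d` and over `n` terms of an `n`-periodic integer sequence agree. -/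
theorem periodic_avg (o : ℕ → ℤ) (n : ℕ) (hn : 0 < n) (h : ∀ k, o (k + n) = o k) (d : ℕ)
    (hd : 0 < d) :
    (((∑ k ∈ Finset.range (n * d), o k : ℤ) : ℚ) / ((n * d : ℕ) : ℚ)) =
      ((∑ k ∈ Finset.range n, o k : ℤ) : ℚ) / (n : ℚ) := by
  rw [sum_range_mul_of_periodic o n h d]
  have hn' : (n : ℚ) ≠ 0 := Nat.cast_ne_zero.mpr hn.ne'
  have hd' : (d : ℚ) ≠ 0 := Nat.cast_ne_zero.mpr hd.ne'
  rw [nsmul_eq_mul]
  push_cast
  field_simp

end Fermat.Agent.S55.H56
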